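/-
S55 / 44-DUALIZING, second seat (helper11): the permutation module `k[G/V]` of `Contract34`
(`Rep.ofMulAction`) is helper59's co-induced module `coind V k = k^(G/V)`, equivariantly, and
`coind V k` carries a perfect equivariant SELF-pairing into any one-dimensional `μ` on which `V`
acts trivially (so `coind V k` is its own "dual twist": the `M' = M = coind V k` instance of
`Dualizing11.formulaA59`).
-/
import Fermat.Agent.S55.Dualizing59.Perm
import Fermat.Agent.S55.Contract34
import Fermat.Agent.S55.Profin15.Functor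

set_option autoImplicit false
set_option linter.unusedSectionVars false

universe u

open CategoryTheory groupCohomology

namespace Fermat.Agent.S55.Dualizing11

open Fermat.Agent.S55.Profin15 Fermat.Agent.S55.Dualizing59

section generic

variable {k : Type u} [Field k] {G : Type u} [Group G] (V : Subgroup G)

/-- the coefficient of `ρ g a` at `y` is the coefficient of `a` at `g⁻¹ • y` -/
lemma ofMulAction_coeff_apply (g : G) (a : MonoidAlgebra k (G ⧸ V)) (y : G ⧸ V) :
    (Representation.ofMulAction k G (G ⧸ V) g a).coeff y = a.coeff (g⁻¹ • y) := by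
  have hinj : Function.Injective (fun x : G ⧸ V => g • x) := MulAction.injective g
  have hy : y = (fun x : G ⧸ V => g • x) (g⁻¹ • y) := by simp
  have h1 : (Representation.ofMulAction k G (G ⧸ V) g a).coeff =
      Finsupp.mapDomain (fun x : G ⧸ V => g • x) a.coeff := rfl
  rw [h1]
  conv_lhs => rw [hy]
  exact Finsupp.mapDomain_apply hinj _ _

variable [Finite (G ⧸ V)]

/-- **`k[G/V] ≃ k^(G/V)`**: a formal sum goes to its coefficient function. -/
noncomputable def permCoindEquiv :
    (Rep.ofMulAction k G (G ⧸ V)) ≃ₗ[k] coind (k := k) V k :=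
  (MonoidAlgebra.coeffLinearEquiv k).trans (Finsupp.linearEquivFunOnFinite k k (G ⧸ V))

@[simp] lemma permCoindEquiv_apply (a : MonoidAlgebra k (G ⧸ V)) (x : G ⧸ V) :
    permCoindEquiv (k := k) V a x = a.coeff x := rfl

/-- the equivalence `k[G/V] ≃ k^(G/V)` is equivariant -/
theorem permCoindEquiv_equivariant :
    LevelStr.IsEquivariant (A := Rep.ofMulAction k G (G ⧸ V)) (B := coind (k := k) V k)
      (permCoindEquiv (k := k) V).toLinearMap := by
  intro g a
  funext x
  show ((Rep.ofMulAction k G (G ⧸ V)).ρ g a).coeff x = a.coeff (g⁻¹ • x)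
  exact ofMulAction_coeff_apply V g a x

/-- the inverse equivalence `k^(G/V) ≃ k[G/V]` is equivariant -/
theorem permCoindEquiv_symm_equivariant :
    LevelStr.IsEquivariant (A := coind (k := k) V k) (B := Rep.ofMulAction k G (G ⧸ V))
      (permCoindEquiv (k := k) V).symm.toLinearMap := by
  intro g f
  apply (permCoindEquiv (k := k) V).injective
  have h := permCoindEquiv_equivariant (k := k) V g ((permCoindEquiv (k := k) V).symm f)
  simp only [LinearEquiv.coe_coe, LinearEquiv.apply_symm_apply] at h ⊢
  exact h.symm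

end generic

section pairing

variable {k : Type u} [Field k] {G : Type u} [Group G] (V : Subgroup G) [Fintype (G ⧸ V)]
  (μ : Rep.{u} k G) (m₀ : μ)

/-- the self-pairing on the raw function space -/
noncomputable def selfPairFun : ((G ⧸ V) → k) →ₗ[k] ((G ⧸ V) → k) →ₗ[k] μ :=
  LinearMap.mk₂ k
    (fun (f' f : (G ⧸ V) → k) => coverLin V μ (fun x => (f' x * f x) • m₀))
    (fun f₁ f₂ f => by
      rw [← map_add]
      congr 1
      funext x
      simp only [Pi.add_apply, add_mul, add_smul])
    (fun c f' f => by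
      rw [← map_smul]
      congr 1
      funext x
      simp only [Pi.smul_apply, smul_eq_mul, mul_assoc, mul_smul])
    (fun f' f₁ f₂ => by
      rw [← map_add]
      congr 1
      funext x
      simp only [Pi.add_apply, mul_add, add_smul])
    (fun c f' f => by
      rw [← map_smul]
      congr 1
      funext x
      simp only [Pi.smul_apply, smul_eq_mul, mul_left_comm, mul_smul])

lemma selfPairFun_apply (f' f : (G ⧸ V) → k) :
    selfPairFun V μ m₀ f' f = ∑ x : G ⧸ V, (f' x * f x) • μ.ρ (Quotient.out x) m₀ := by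
  show coverLin V μ (fun x => (f' x * f x) • m₀) = _
  rw [coverLin_apply]
  refine Finset.sum_congr rfl fun x _ => ?_
  rw [map_smul]

open Classical in
lemma selfPairFun_single (f' : (G ⧸ V) → k) (y : G ⧸ V) (c : k) :
    selfPairFun V μ m₀ f' (Pi.single y c : (G ⧸ V) → k) =
      (f' y * c) • μ.ρ (Quotient.out y) m₀ := by
  rw [selfPairFun_apply, Finset.sum_eq_single y]
  · rw [Pi.single_eq_same]
  · intro x _ hx
    rw [Pi.single_eq_of_ne hx, mul_zero, zero_smul]
  · intro h
    exact (h (Finset.mem_univ _)).elim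

lemma selfPairFun_bijective (hm₀ : Function.Bijective (fun c : k => c • m₀)) :
    Function.Bijective (selfPairFun V μ m₀) := by
  classical
  have hρ : ∀ (g : G) (m : μ), μ.ρ g⁻¹ (μ.ρ g m) = m := fun g m => by
    rw [← Module.End.mul_apply, ← map_mul, inv_mul_cancel, map_one, Module.End.one_apply]
  have hρ' : ∀ (g : G) (m : μ), μ.ρ g (μ.ρ g⁻¹ m) = m := fun g m => by
    rw [← Module.End.mul_apply, ← map_mul, mul_inv_cancel, map_one, Module.End.one_apply]
  constructor
  · rw [injective_iff_map_eq_zero]
    intro f' hf'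
    funext y
    have h1 := LinearMap.congr_fun hf' (Pi.single y (1 : k) : (G ⧸ V) → k)
    rw [selfPairFun_single, mul_one, LinearMap.zero_apply, ← map_smul] at h1
    have h2 : f' y • m₀ = 0 := by
      have := congrArg (μ.ρ (Quotient.out y)⁻¹) h1
      rwa [hρ, map_zero] at this
    have h3 : (fun c : k => c • m₀) (f' y) = (fun c : k => c • m₀) 0 := by
      simp only [h2, zero_smul]
    exact hm₀.1 h3
  · intro L
    choose c hc using fun m : μ => hm₀.2 m
    let f' : (G ⧸ V) → k := fun y =>
      c (μ.ρ (Quotient.out y)⁻¹ (L (Pi.single y (1 : k) : (G ⧸ V) → k)))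
    refine ⟨f', ?_⟩
    refine LinearMap.pi_ext fun y a => ?_
    rw [selfPairFun_single]
    have h1 : f' y • m₀ = μ.ρ (Quotient.out y)⁻¹ (L (Pi.single y (1 : k) : (G ⧸ V) → k)) :=
      hc _
    have h2 : (Pi.single y a : (G ⧸ V) → k) = a • (Pi.single y (1 : k) : (G ⧸ V) → k) := by
      funext x
      by_cases hx : x = y
      · subst hx
        simp
      · simp [Pi.single_eq_of_ne hx]
    rw [mul_comm, mul_smul, ← map_smul, ← map_smul, h1, map_smul, hρ', h2, map_smul]

/-- **the self-pairing of `k^(G/V)` into `μ`**: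
`⟨f', f⟩ = ∑ₓ f'(x) f(x) • (x̃ • m₀)` (`x̃` a representative of `x`). -/
noncomputable def selfPair : coind (k := k) V k →ₗ[k] coind (k := k) V k →ₗ[k] μ :=
  selfPairFun V μ m₀

lemma selfPair_apply (f' f : (G ⧸ V) → k) :
    selfPair V μ m₀ f' f = ∑ x : G ⧸ V, (f' x * f x) • μ.ρ (Quotient.out x) m₀ :=
  selfPairFun_apply V μ m₀ f' f

/-- **equivariance of the self-pairing** when `V` acts trivially on `μ`: the binder `hBeq` of
`Dualizing11.formulaA59` with `M = M' = coind V k`. -/
theorem selfPair_equivariant (hVμ : ∀ s ∈ V, ∀ m : μ, μ.ρ s m = m) (g : G)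
    (f' f : coind (k := k) V k) :
    selfPair V μ m₀ ((coind (k := k) V k).ρ g f') ((coind (k := k) V k).ρ g f) =
      μ.ρ g (selfPair V μ m₀ f' f) :=
  coverLin_comp_smul hVμ g (fun x => ((f' : (G ⧸ V) → k) x * (f : (G ⧸ V) → k) x) • m₀)

/-- **the self-pairing is perfect** when `m₀` is a basis of `μ`: the binder `hBbij` of
`Dualizing11.formulaA59` with `M = M' = coind V k`. -/
theorem selfPair_bijective (hm₀ : Function.Bijective (fun c : k => c • m₀)) :
    Function.Bijective (selfPair V μ m₀) :=
  selfPairFun_bijective V μ m₀ hm₀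

end pairing

section existence

variable {k : Type u} [Field k] {G : Type u} [Group G] (V : Subgroup G) [Finite (G ⧸ V)]
  (μ : Rep.{u} k G)

/-- **`k^(G/V)` is self-dual up to the twist by a one-dimensional `μ` fixed by `V`**: the pairing
data `(B, hBeq, hBbij)` of `Dualizing11.formulaA59` / `sha_duality59` for `M = M' = coind V k`. -/
theorem exists_selfPair (hVμ : ∀ s ∈ V, ∀ m : μ, μ.ρ s m = m) (m₀ : μ)
    (hm₀ : Function.Bijective (fun c : k => c • m₀)) :
    ∃ B : coind (k := k) V k →ₗ[k] coind (k := k) V k →ₗ[k] μ,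
      (∀ (g : G) (f' f : coind (k := k) V k),
        B ((coind (k := k) V k).ρ g f') ((coind (k := k) V k).ρ g f) = μ.ρ g (B f' f)) ∧
      Function.Bijective B := by
  let _ := Fintype.ofFinite (G ⧸ V)
  exact ⟨selfPair V μ m₀, selfPair_equivariant V μ m₀ hVμ, selfPair_bijective V μ m₀ hm₀⟩

end existence

/-! ### The instance `k = ZMod p`, `G = G_ℚ` of `Contract34` -/

section instance_

open Fermat.Agent.S55.Contract34
open Fermat.Agent.Lib.FrobeniusExists (Qb GQ)

variable (p : ℕ) [Fact p.Prime] (V : Subgroup GQ) [Finite (GQ ⧸ V)]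

/-- `Contract34.perm p V ≃ coind V (ZMod p)` -/
noncomputable def permCoind : perm p V ≃ₗ[ZMod p] coind (k := ZMod p) V (ZMod p) :=
  permCoindEquiv (k := ZMod p) V

@[simp] lemma permCoind_apply (a : perm p V) (x : GQ ⧸ V) :
    permCoind p V a x = (a : MonoidAlgebra (ZMod p) (GQ ⧸ V)).coeff x := rfl

theorem permCoind_equivariant :
    LevelStr.IsEquivariant (A := perm p V) (B := coind (k := ZMod p) V (ZMod p))
      (permCoind p V).toLinearMap :=
  permCoindEquiv_equivariant (k := ZMod p) V

theorem permCoind_symm_equivariant :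
    LevelStr.IsEquivariant (A := coind (k := ZMod p) V (ZMod p)) (B := perm p V)
      (permCoind p V).symm.toLinearMap :=
  permCoindEquiv_symm_equivariant (k := ZMod p) V

/-- the literal binder `hmu` of `Contract34.GlobalCokerDim` / `HilbertCount` gives the binder
`hVμ` of `Dualizing59`. -/
lemma mu_fixed_of_ρ_eq_one {V : Subgroup GQ} (hV : ∀ s ∈ V, (mu p).ρ s = 1) :
    ∀ s ∈ V, ∀ m : mu p, (mu p).ρ s m = m := fun s hs m => by
  rw [hV s hs]
  rfl

/-- and conversely -/
lemma mu_ρ_eq_one_of_fixed {V : Subgroup GQ} (hV : ∀ s ∈ V, ∀ m : mu p, (mu p).ρ s m = m) :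
    ∀ s ∈ V, (mu p).ρ s = 1 := fun s hs => LinearMap.ext fun m => hV s hs m

/-- `1` is a basis of `μ_p = ZMod p` -/
lemma mu_one_bijective : Function.Bijective (fun c : ZMod p => c • (1 : mu p)) := by
  have h : (fun c : ZMod p => c • (1 : mu p)) = fun c : ZMod p => (c : mu p) := by
    funext c
    exact mul_one c
  rw [h]
  exact Function.bijective_id

/-- **the pairing data of `Dualizing11.formulaA59` for `M = M' = 𝔽_p^(G/V)`, `μ = μ_p`**, for a
subgroup `V` of finite index acting trivially on `μ_p`. -/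
theorem exists_muPair {V : Subgroup GQ} [Finite (GQ ⧸ V)] (hV : ∀ s ∈ V, (mu p).ρ s = 1) :
    ∃ B : coind (k := ZMod p) V (ZMod p) →ₗ[ZMod p] coind (k := ZMod p) V (ZMod p) →ₗ[ZMod p] mu p,
      (∀ (g : GQ) (f' f : coind (k := ZMod p) V (ZMod p)),
        B ((coind (k := ZMod p) V (ZMod p)).ρ g f') ((coind (k := ZMod p) V (ZMod p)).ρ g f) =
          (mu p).ρ g (B f' f)) ∧
      Function.Bijective B :=
  exists_selfPair V (mu p) (mu_fixed_of_ρ_eq_one p hV) (1 : mu p) (mu_one_bijective p)

end instance_

end Fermat.Agent.S55.Dualizing11
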