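/-
S55 / 44-DUALIZING, second seat (helper11): the internal Hom `Hom_k(M, X)` of two representations
(conjugation action), its invariants (= equivariant maps), smoothness, functoriality in `X` and
exactness of `Hom_k(M, -)` (coefficients in a field), in the `Profin15` vocabulary.
-/
import Fermat.Agent.S55.Dualizing59.Main
import Fermat.Agent.S55.Profin15.LES0

set_option autoImplicit false
set_option linter.style.haveILetI false
set_option linter.unusedSectionVars false

universe u

open CategoryTheory groupCohomology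

namespace Fermat.Agent.S55.Dualizing11

open Fermat.Agent.S55.Profin15 Fermat.Agent.S55.Dualizing59

variable {k : Type u} [Field k] {G : Type u} [Group G]

/-- `Hom_k(M, X)` with the conjugation action `(g • f) m = g • f (g⁻¹ • m)`. -/
def homObj (M X : Rep.{u} k G) : Rep.{u} k G := Rep.of (Representation.linHom M.ρ X.ρ)

namespace homObj

variable {M X X' X'' : Rep.{u} k G}

/-- the underlying linear map of an element of `homObj M X` -/
def toLin (f : homObj M X) : M →ₗ[k] X := f

/-- an element of `homObj M X` from a linear map -/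
def ofLin (f : M →ₗ[k] X) : homObj M X := f

@[simp] lemma toLin_ofLin (f : M →ₗ[k] X) : toLin (ofLin f) = f := rfl
@[simp] lemma ofLin_toLin (f : homObj M X) : ofLin (toLin f) = f := rfl

lemma ext {f f' : homObj M X} (h : ∀ m, toLin f m = toLin f' m) : f = f' :=
  LinearMap.ext h

@[simp] lemma toLin_add (f f' : homObj M X) : toLin (f + f') = toLin f + toLin f' := rfl
@[simp] lemma toLin_sub (f f' : homObj M X) : toLin (f - f') = toLin f - toLin f' := rfl
@[simp] lemma toLin_smul (c : k) (f : homObj M X) : toLin (c • f) = c • toLin f := rfl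
@[simp] lemma toLin_zero : toLin (0 : homObj M X) = 0 := rfl

@[simp] lemma toLin_ρ (g : G) (f : homObj M X) (m : M) :
    toLin ((homObj M X).ρ g f) m = X.ρ g (toLin f (M.ρ g⁻¹ m)) := rfl

/-- the linear equivalence `homObj M X ≃ (M →ₗ X)` (identity) -/
def linEquiv : homObj M X ≃ₗ[k] (M →ₗ[k] X) := LinearEquiv.refl k _

@[simp] lemma linEquiv_apply (f : homObj M X) : linEquiv f = toLin f := rfl

end homObj

open homObj

variable {M X X' X'' : Rep.{u} k G}

/-- invariants of `Hom_k(M, X)` are the equivariant maps -/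
lemma mem_invariants_homObj_iff (f : homObj M X) :
    f ∈ (homObj M X).ρ.invariants ↔ toLin f ∈ eqHom M X := by
  constructor
  · intro hf g m
    have h := congrArg (fun f' : homObj M X => toLin f' (M.ρ g m)) (hf g)
    simp only [toLin_ρ] at h
    rw [← Module.End.mul_apply, ← map_mul, inv_mul_cancel, map_one, Module.End.one_apply] at h
    exact h.symm
  · intro hf g
    refine homObj.ext fun m => ?_
    rw [toLin_ρ]
    have h := hf g (M.ρ g⁻¹ m)
    simp only [MonoidHom.id_apply] at h
    rw [← h, ← Module.End.mul_apply, ← map_mul, mul_inv_cancel, map_one, Module.End.one_apply]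

variable (M X) in
/-- `H⁰(Hom_k(M, X)) ≃ Hom_G(M, X)` -/
def h0Equiv : ↥(LevelStr.H0 (homObj M X)) ≃ₗ[k] eqHom M X where
  toFun f := ⟨toLin f.1, (mem_invariants_homObj_iff f.1).1 f.2⟩
  invFun φ := ⟨ofLin φ.1, (mem_invariants_homObj_iff (ofLin φ.1)).2 φ.2⟩
  map_add' _ _ := rfl
  map_smul' _ _ := rfl
  left_inv _ := rfl
  right_inv _ := rfl

@[simp] lemma h0Equiv_apply_coe (f : ↥(LevelStr.H0 (homObj M X))) :
    (h0Equiv M X f).1 = toLin f.1 := rfl

@[simp] lemma h0Equiv_symm_apply_coe (φ : eqHom M X) :
    toLin ((h0Equiv M X).symm φ).1 = φ.1 := rfl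

/-- `Hom_k(M, X)` is smooth if `M` is finite-dimensional smooth and `X` is smooth. -/
lemma homObj_isSmooth (𝒰 : LevelStr G) [Module.Finite k M] (hM : 𝒰.IsSmooth M)
    (hX : 𝒰.IsSmooth X) : 𝒰.IsSmooth (homObj M X) := by
  intro f
  obtain ⟨U, hU, htriv⟩ := exists_level_trivial M hM
  obtain ⟨S, hS⟩ : (⊤ : Submodule k M).FG := Module.finite_def.1 inferInstance
  obtain ⟨V, hV, hfix⟩ := hX.exists_level_of_finite
    (s := (fun m => toLin f m) '' (S : Set M)) (S.finite_toSet.image _)
  obtain ⟨W, hW, hle⟩ := 𝒰.directed U hU V hV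
  refine ⟨W, hW, fun s hs => homObj.ext fun m => ?_⟩
  rw [toLin_ρ, htriv s⁻¹ (U.inv_mem (hle.trans inf_le_left hs)) m]
  have hle' : (⊤ : Submodule k M) ≤
      LinearMap.eqLocus (X.ρ s ∘ₗ toLin f) (toLin f) := by
    rw [← hS, Submodule.span_le]
    intro m' hm'
    exact hfix _ ⟨m', hm', rfl⟩ s (hle.trans inf_le_right hs)
  exact hle' (Submodule.mem_top (x := m))

/-- post-composition with an equivariant map -/
def homPost (M : Rep.{u} k G) (φ : X →ₗ[k] X') : homObj M X →ₗ[k] homObj M X' where
  toFun f := ofLin (φ ∘ₗ toLin f)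
  map_add' f f' := by
    refine homObj.ext fun m => ?_
    show φ (toLin f m + toLin f' m) = φ (toLin f m) + φ (toLin f' m)
    rw [map_add]
  map_smul' c f := by
    refine homObj.ext fun m => ?_
    show φ (c • toLin f m) = c • φ (toLin f m)
    rw [map_smul]

@[simp] lemma toLin_homPost (φ : X →ₗ[k] X') (f : homObj M X) (m : M) :
    toLin (homPost M φ f) m = φ (toLin f m) := rfl

lemma homPost_isEquivariant {φ : X →ₗ[k] X'} (hφ : LevelStr.IsEquivariant φ) :
    LevelStr.IsEquivariant (homPost M φ) := by
  intro g f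
  refine homObj.ext fun m => ?_
  rw [toLin_homPost, toLin_ρ, toLin_ρ, toLin_homPost, hφ g]

/-- `Hom_k(M, -)` is exact (coefficients in a field). -/
theorem shortExact_homPost (M : Rep.{u} k G) {φ : X →ₗ[k] X'} {ψ : X' →ₗ[k] X''}
    (h : LevelStr.ShortExact φ ψ) : LevelStr.ShortExact (homPost M φ) (homPost M ψ) where
  equivariant_left := homPost_isEquivariant h.equivariant_left
  equivariant_right := homPost_isEquivariant h.equivariant_right
  injective := by
    intro f f' hff'
    refine homObj.ext fun m => h.injective ?_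
    have := congrArg (fun e : homObj M X' => toLin e m) hff'
    simpa using this
  surjective := by
    intro f
    obtain ⟨s, hs⟩ := LinearMap.exists_rightInverse_of_surjective ψ
      (LinearMap.range_eq_top.2 h.surjective)
    refine ⟨ofLin (s ∘ₗ toLin f), homObj.ext fun m => ?_⟩
    rw [toLin_homPost]
    exact LinearMap.congr_fun hs (toLin f m)
  exact := by
    intro f
    constructor
    · intro hf
      obtain ⟨t, ht⟩ := LinearMap.exists_leftInverse_of_injective φ
        (LinearMap.ker_eq_bot.2 h.injective)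
      refine ⟨ofLin (t ∘ₗ toLin f), homObj.ext fun m => ?_⟩
      rw [toLin_homPost]
      have h0 : ψ (toLin f m) = 0 := by
        have := congrArg (fun e : homObj M X'' => toLin e m) hf
        simpa using this
      obtain ⟨a, ha⟩ := (h.exact (toLin f m)).1 h0
      show φ (t (toLin f m)) = toLin f m
      rw [← ha]
      exact congrArg φ (LinearMap.congr_fun ht a)
    · rintro ⟨f', rfl⟩
      refine homObj.ext fun m => ?_
      rw [toLin_homPost, toLin_homPost]
      exact h.comp_eq_zero _

end Fermat.Agent.S55.Dualizing11
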