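/-
S55 / 44-DUALIZING, second seat (helper11): **Formula (A)**.

On top of helper59's `Dualizing59/Ind.lean` (`JObj = ∏_v Ind_v μ`, `diag : μ → J`, `YObj = J/μ`,
`qY`, `evLin v`).  For a smooth finite-dimensional `M` the sequence

  `∏_v Hom_{G_v}(M, μ) → Hom_G(M, Y) → H¹(𝒰; Hom_k(M, μ)) → ∏_v H¹(G_v, Hom_k(M, μ))`

is exact: the first map is Frobenius reciprocity followed by `qY`, the second is the connecting
map of `0 → Hom_k(M,μ) → Hom_k(M,J) → Hom_k(M,Y) → 0`, and the kernel of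
`H¹(Hom_k(M,μ)) → H¹(Hom_k(M,J))` is identified with the classes that are locally coboundaries
by the explicit cochain `b_v(x) = c(x⁻¹) + n_v` (no Shapiro lemma).
-/
import Fermat.Agent.S55.Dualizing59.Ind
import Fermat.Agent.S55.Dualizing11.HomObj

set_option autoImplicit false
set_option linter.style.haveILetI false
set_option linter.unusedSectionVars false

universe u

open CategoryTheory groupCohomology

namespace Fermat.Agent.S55.Dualizing11

open Fermat.Agent.S55.Profin15 Fermat.Agent.S55.Dualizing59 homObj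

variable {k : Type u} [Field k] {G : Type u} [Group G] {𝒰 : LevelStr G}
variable {ι : Type} [Finite ι] {Gv : ι → Type u} [∀ v, Group (Gv v)]
  {r : ∀ v, Gv v →* G} {μ : Rep.{u} k G}

/-! ### Frobenius reciprocity for `JObj` -/

variable (r μ) in
/-- `Hom_{Gv v}(M, μ)`: linear maps equivariant for the action of `Gv v` through `r v`. -/
abbrev locHom (v : ι) (M : Rep.{u} k G) : Submodule k (Rep.res (r v) M →ₗ[k] Rep.res (r v) μ) :=
  eqHom (Rep.res (r v) M) (Rep.res (r v) μ)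

lemma locHom_apply_ρ {v : ι} {M : Rep.{u} k G} (ψ : locHom r μ v M) (d : Gv v) (m : M) :
    ψ.1 (M.ρ (r v d) m) = μ.ρ (r v d) (ψ.1 m) := ψ.2 d m

/-- the family of functions of an element of `JObj` -/
def jfn (F : JObj 𝒰 r μ) : ι → G → μ := (F : JSub 𝒰 r μ).1

lemma jfn_mem (F : JObj 𝒰 r μ) : jfn F ∈ JSub 𝒰 r μ := (F : JSub 𝒰 r μ).2

lemma jext {F F' : JObj 𝒰 r μ} (h : ∀ v x, jfn F v x = jfn F' v x) : F = F' := by
  apply Subtype.ext
  funext v x
  exact h v x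

/-- constructor -/
def jmk (F : ι → G → μ) (hF : F ∈ JSub 𝒰 r μ) : JObj 𝒰 r μ := (⟨F, hF⟩ : JSub 𝒰 r μ)

@[simp] lemma jfn_jmk (F : ι → G → μ) (hF : F ∈ JSub 𝒰 r μ) : jfn (jmk F hF) = F := rfl

@[simp] lemma jfn_ρ (g : G) (F : JObj 𝒰 r μ) (v : ι) (x : G) :
    jfn ((JObj 𝒰 r μ).ρ g F) v x = jfn F v (g⁻¹ * x) := rfl

@[simp] lemma jfn_add (F F' : JObj 𝒰 r μ) (v : ι) (x : G) :
    jfn (F + F') v x = jfn F v x + jfn F' v x := rfl

@[simp] lemma jfn_sub (F F' : JObj 𝒰 r μ) (v : ι) (x : G) :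
    jfn (F - F') v x = jfn F v x - jfn F' v x := rfl

@[simp] lemma jfn_smul (c : k) (F : JObj 𝒰 r μ) (v : ι) (x : G) :
    jfn (c • F) v x = c • jfn F v x := rfl

variable (𝒰 r μ) in
/-- `evLin` on `JObj` -/
def ev (v : ι) : JObj 𝒰 r μ →ₗ[k] μ := evLin (𝒰 := 𝒰) (r := r) (μ := μ) v

@[simp] lemma ev_apply (v : ι) (F : JObj 𝒰 r μ) : ev 𝒰 r μ v F = jfn F v 1 := rfl

lemma jfn_eq_ev (F : JObj 𝒰 r μ) (v : ι) (x : G) :
    jfn F v x = ev 𝒰 r μ v ((JObj 𝒰 r μ).ρ x⁻¹ F) := by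
  rw [ev_apply, jfn_ρ, inv_inv, mul_one]

lemma ev_ρ (v : ι) (d : Gv v) (F : JObj 𝒰 r μ) :
    ev 𝒰 r μ v ((JObj 𝒰 r μ).ρ (r v d) F) = μ.ρ (r v d) (ev 𝒰 r μ v F) :=
  evLin_isEquivariant (𝒰 := 𝒰) (r := r) (μ := μ) v d F

section frob

variable {M : Rep.{u} k G}

lemma frobFn_mem (hM : 𝒰.IsSmooth M) (ψ : ∀ v, locHom r μ v M) (m : M) :
    (fun (v : ι) (x : G) => ((ψ v).1 (M.ρ x⁻¹ m) : μ)) ∈ JSub 𝒰 r μ := by
  intro v
  obtain ⟨U, hU, hfix⟩ := hM m
  haveI := 𝒰.normal U hU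
  refine ⟨fun x d => ?_, ⟨U, hU, fun x s hs => ?_⟩⟩
  · show (ψ v).1 (M.ρ (x * r v d)⁻¹ m) = μ.ρ (r v d)⁻¹ ((ψ v).1 (M.ρ x⁻¹ m))
    rw [mul_inv_rev, map_mul, Module.End.mul_apply, ← map_inv]
    exact locHom_apply_ρ (ψ v) d⁻¹ _
  · show (ψ v).1 (M.ρ (x * s)⁻¹ m) = (ψ v).1 (M.ρ x⁻¹ m)
    have h1 : (x * s)⁻¹ = x⁻¹ * (x * s⁻¹ * x⁻¹) := by group
    rw [h1, map_mul, Module.End.mul_apply,
      hfix _ (Subgroup.Normal.conj_mem ‹_› s⁻¹ (U.inv_mem hs) x)]

/-- Frobenius reciprocity, the linear map `M → J` attached to a family of local maps. -/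
def frobLin (hM : 𝒰.IsSmooth M) (ψ : ∀ v, locHom r μ v M) : M →ₗ[k] JObj 𝒰 r μ where
  toFun m := jmk _ (frobFn_mem hM ψ m)
  map_add' a b := jext fun v x => by
    show (ψ v).1 (M.ρ x⁻¹ (a + b)) = (ψ v).1 (M.ρ x⁻¹ a) + (ψ v).1 (M.ρ x⁻¹ b)
    rw [map_add, map_add]
  map_smul' c a := jext fun v x => by
    show (ψ v).1 (M.ρ x⁻¹ (c • a)) = c • (ψ v).1 (M.ρ x⁻¹ a)
    rw [map_smul, map_smul]

@[simp] lemma jfn_frobLin (hM : 𝒰.IsSmooth M) (ψ : ∀ v, locHom r μ v M) (m : M) (v : ι) (x : G) :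
    jfn (frobLin hM ψ m) v x = (ψ v).1 (M.ρ x⁻¹ m) := rfl

lemma frobLin_mem_eqHom (hM : 𝒰.IsSmooth M) (ψ : ∀ v, locHom r μ v M) :
    frobLin hM ψ ∈ eqHom M (JObj 𝒰 r μ) := by
  intro g m
  refine jext fun v x => ?_
  show (ψ v).1 (M.ρ x⁻¹ (M.ρ g m)) = (ψ v).1 (M.ρ (g⁻¹ * x)⁻¹ m)
  rw [mul_inv_rev, inv_inv, map_mul, Module.End.mul_apply]

/-- **Frobenius reciprocity** `∏_v Hom_{Gv v}(M, μ) → Hom_G(M, J)`. -/
def frob (hM : 𝒰.IsSmooth M) : (∀ v, locHom r μ v M) →ₗ[k] eqHom M (JObj 𝒰 r μ) where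
  toFun ψ := ⟨frobLin hM ψ, frobLin_mem_eqHom hM ψ⟩
  map_add' ψ ψ' := by
    apply Subtype.ext
    apply LinearMap.ext
    intro m
    exact jext fun v x => rfl
  map_smul' c ψ := by
    apply Subtype.ext
    apply LinearMap.ext
    intro m
    exact jext fun v x => rfl

@[simp] lemma ev_frob (hM : 𝒰.IsSmooth M) (ψ : ∀ v, locHom r μ v M) (v : ι) (m : M) :
    ev 𝒰 r μ v ((frob hM ψ).1 m) = (ψ v).1 m := by
  show (ψ v).1 (M.ρ (1 : G)⁻¹ m) = (ψ v).1 m
  simp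

variable (𝒰 r μ) in
/-- the inverse of Frobenius reciprocity: `φ ↦ (ev 𝒰 r μ v ∘ φ)_v` -/
def frobInv (M : Rep.{u} k G) : eqHom M (JObj 𝒰 r μ) →ₗ[k] (∀ v, locHom r μ v M) where
  toFun φ := fun v => ⟨ev 𝒰 r μ v ∘ₗ φ.1, fun d m => by
    have h1 := φ.2 (r v d) m
    simp only [MonoidHom.id_apply] at h1
    show ev 𝒰 r μ v (φ.1 (M.ρ (r v d) m)) = μ.ρ (r v d) (ev 𝒰 r μ v (φ.1 m))
    rw [h1]
    exact ev_ρ v d _⟩
  map_add' _ _ := rfl
  map_smul' _ _ := rfl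

@[simp] lemma frobInv_apply (φ : eqHom M (JObj 𝒰 r μ)) (v : ι) (m : M) :
    (frobInv 𝒰 r μ M φ v).1 m = ev 𝒰 r μ v (φ.1 m) := rfl

lemma frobInv_frob (hM : 𝒰.IsSmooth M) (ψ : ∀ v, locHom r μ v M) :
    frobInv 𝒰 r μ M (frob hM ψ) = ψ := by
  funext v
  apply Subtype.ext
  apply LinearMap.ext
  intro m
  exact ev_frob hM ψ v m

lemma frob_frobInv (hM : 𝒰.IsSmooth M) (φ : eqHom M (JObj 𝒰 r μ)) :
    frob hM (frobInv 𝒰 r μ M φ) = φ := by
  apply Subtype.ext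
  apply LinearMap.ext
  intro m
  refine jext fun v x => ?_
  rw [jfn_eq_ev (φ.1 m)]
  have h1 := φ.2 x⁻¹ m
  simp only [MonoidHom.id_apply] at h1
  rw [← h1]
  rfl

/-- **Frobenius reciprocity** as a linear equivalence. -/
def frobEquiv (hM : 𝒰.IsSmooth M) : (∀ v, locHom r μ v M) ≃ₗ[k] eqHom M (JObj 𝒰 r μ) :=
  { frob hM with
    invFun := frobInv 𝒰 r μ M
    left_inv := frobInv_frob hM
    right_inv := frob_frobInv hM }

end frob

/-! ### The short exact sequence `0 → Hom(M,μ) → Hom(M,J) → Hom(M,Y) → 0` and its connecting map -/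

section sequence

variable (r)
variable [Nonempty ι] (hμ : ∃ U ∈ 𝒰.levels, ∀ s ∈ U, ∀ m : μ, μ.ρ s m = m)

/-- `0 → μ → J → Y → 0` is short exact (in the `Profin15` sense). -/
theorem shortExact_diag_qY :
    LevelStr.ShortExact (A := μ) (B := JObj 𝒰 r μ) (C := YObj (r := r) hμ)
      (diag (r := r) hμ).1 (qY (r := r) hμ).1 where
  equivariant_left := fun g a => (diag (r := r) hμ).2 g a
  equivariant_right := fun g a => (qY (r := r) hμ).2 g a
  injective := diag_injective hμ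
  surjective := cokerProj_surjective _
  exact := fun F => cokerProj_apply_eq_zero_iff (diag (r := r) hμ) F

/-- post-composition with an equivariant map, on equivariant maps -/
def eqPost {X X' : Rep.{u} k G} (M : Rep.{u} k G) (ψ : eqHom X X') :
    eqHom M X →ₗ[k] eqHom M X' where
  toFun φ := eqComp ψ φ
  map_add' φ φ' := by
    apply Subtype.ext
    apply LinearMap.ext
    intro m
    show ψ.1 (φ.1 m + φ'.1 m) = ψ.1 (φ.1 m) + ψ.1 (φ'.1 m)
    rw [map_add]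
  map_smul' c φ := by
    apply Subtype.ext
    apply LinearMap.ext
    intro m
    show ψ.1 (c • φ.1 m) = c • ψ.1 (φ.1 m)
    rw [map_smul]

@[simp] lemma eqPost_apply_apply {X X' : Rep.{u} k G} (M : Rep.{u} k G) (ψ : eqHom X X')
    (φ : eqHom M X) (m : M) : (eqPost M ψ φ).1 m = ψ.1 (φ.1 m) := rfl

variable (M : Rep.{u} k G) [Module.Finite k M] (hM : 𝒰.IsSmooth M)

/-- the short exact sequence `0 → Hom(M,μ) → Hom(M,J) → Hom(M,Y) → 0` -/
theorem shortExact_hom :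
    LevelStr.ShortExact (homPost M (diag (r := r) hμ).1) (homPost M (qY (r := r) hμ).1) :=
  shortExact_homPost M (shortExact_diag_qY r hμ)

include hM in
lemma homJ_isSmooth : 𝒰.IsSmooth (homObj M (JObj 𝒰 r μ)) :=
  homObj_isSmooth 𝒰 hM JObj_isSmooth

/-- **the connecting map** `Hom_G(M, Y) → H¹(𝒰; Hom_k(M, μ))` -/
noncomputable def delta : eqHom M (YObj (r := r) hμ) →ₗ[k] 𝒰.H1 (homObj M μ) :=
  (shortExact_hom r hμ M).δ₀ 𝒰 (homJ_isSmooth r M hM) ∘ₗ (h0Equiv M (YObj (r := r) hμ)).symm.toLinearMap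

/-- Frobenius reciprocity followed by the projection `J → Y` -/
def frobY : (∀ v, locHom r μ v M) →ₗ[k] eqHom M (YObj (r := r) hμ) :=
  eqPost M (qY (r := r) hμ) ∘ₗ frob hM

@[simp] lemma frobY_apply (ψ : ∀ v, locHom r μ v M) :
    frobY r hμ M hM ψ = eqComp (qY (r := r) hμ) (frob hM ψ) := rfl

/-- **Exactness at `Hom_G(M, Y)`**. -/
theorem exact_frobY_delta : Function.Exact (frobY r hμ M hM) (delta r hμ M hM) := by
  intro φ
  have hex := (shortExact_hom r hμ M).exact_H0map_δ₀ 𝒰 (homJ_isSmooth r M hM)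
    ((h0Equiv M (YObj (r := r) hμ)).symm φ)
  show (shortExact_hom r hμ M).δ₀ 𝒰 (homJ_isSmooth r M hM)
    ((h0Equiv M (YObj (r := r) hμ)).symm φ) = 0 ↔ _
  rw [hex]
  constructor
  · rintro ⟨f, hf⟩
    refine ⟨frobInv 𝒰 r μ M (h0Equiv M (JObj 𝒰 r μ) f), ?_⟩
    rw [frobY_apply, frob_frobInv]
    apply Subtype.ext
    apply LinearMap.ext
    intro m
    have := congrArg (fun e : ↥(LevelStr.H0 (homObj M (YObj (r := r) hμ))) => toLin e.1 m) hf
    exact this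
  · rintro ⟨ψ, rfl⟩
    refine ⟨(h0Equiv M (JObj 𝒰 r μ)).symm (frob hM ψ), ?_⟩
    apply Subtype.ext
    rfl

/-- **Exactness at `H¹(Hom_k(M, μ))`, first form**: the image of `delta` is the kernel of
`H¹(Hom(M,μ)) → H¹(Hom(M,J))`. -/
theorem mem_range_delta_iff (x : 𝒰.H1 (homObj M μ)) :
    x ∈ LinearMap.range (delta r hμ M hM) ↔
      𝒰.H1map (homPost M (diag (r := r) hμ).1) (shortExact_hom r hμ M).equivariant_left x = 0 := by
  rw [(shortExact_hom r hμ M).exact_δ₀_H1map 𝒰 (homJ_isSmooth r M hM) x]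
  constructor
  · rintro ⟨φ, rfl⟩
    exact ⟨_, rfl⟩
  · rintro ⟨f, rfl⟩
    exact ⟨h0Equiv M (YObj (r := r) hμ) f, rfl⟩

/-! ### Shapiro-free identification of `ker (H¹(Hom(M,μ)) → H¹(Hom(M,J)))` -/

include hM in
/-- the explicit cochain `Φ(m) v x = (c(x⁻¹) + n v)(x⁻¹ m)` lies in `J` -/
lemma bFn_mem (c : ↥(𝒰.Z₁ (homObj M μ))) (n : ι → homObj M μ)
    (hn : ∀ v (d : Gv v), (c : G → homObj M μ) (r v d) = (homObj M μ).ρ (r v d) (n v) - n v)
    (m : M) :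
    (fun (v : ι) (x : G) => toLin ((c : G → homObj M μ) x⁻¹ + n v) (M.ρ x⁻¹ m)) ∈ JSub 𝒰 r μ := by
  have hcoc := (mem_cocycles₁_iff (c : G → homObj M μ)).1 c.2.1
  intro v
  refine ⟨fun x d => ?_, ?_⟩
  · show toLin ((c : G → homObj M μ) (x * r v d)⁻¹ + n v) (M.ρ (x * r v d)⁻¹ m) =
      μ.ρ (r v d)⁻¹ (toLin ((c : G → homObj M μ) x⁻¹ + n v) (M.ρ x⁻¹ m))
    have h1 : (c : G → homObj M μ) (x * r v d)⁻¹ + n v =
        (homObj M μ).ρ (r v d)⁻¹ ((c : G → homObj M μ) x⁻¹ + n v) := by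
      have h2 := hn v d⁻¹
      rw [map_inv] at h2
      rw [mul_inv_rev, hcoc, h2, map_add]
      abel
    rw [h1, toLin_ρ, mul_inv_rev, map_mul, Module.End.mul_apply, ← Module.End.mul_apply,
      ← map_mul, inv_inv, mul_inv_cancel, map_one, Module.End.one_apply]
  · obtain ⟨U, hU, hc⟩ := c.2.2
    obtain ⟨V, hV, hfix⟩ := hM m
    obtain ⟨W, hW, hle⟩ := 𝒰.directed U hU V hV
    haveI := 𝒰.normal W hW
    refine ⟨W, hW, fun x s hs => ?_⟩
    show toLin ((c : G → homObj M μ) (x * s)⁻¹ + n v) (M.ρ (x * s)⁻¹ m) =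
      toLin ((c : G → homObj M μ) x⁻¹ + n v) (M.ρ x⁻¹ m)
    have ht : x * s⁻¹ * x⁻¹ ∈ W := Subgroup.Normal.conj_mem ‹_› s⁻¹ (W.inv_mem hs) x
    have h1 : (x * s)⁻¹ = x⁻¹ * (x * s⁻¹ * x⁻¹) := by group
    rw [h1, hc _ _ (hle.trans inf_le_left ht), map_mul, Module.End.mul_apply,
      hfix _ (hle.trans inf_le_right ht)]

/-- the explicit primitive `Φ ∈ Hom_k(M, J)` -/
def bLin (c : ↥(𝒰.Z₁ (homObj M μ))) (n : ι → homObj M μ)
    (hn : ∀ v (d : Gv v), (c : G → homObj M μ) (r v d) = (homObj M μ).ρ (r v d) (n v) - n v) :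
    M →ₗ[k] JObj 𝒰 r μ where
  toFun m := jmk _ (bFn_mem r M hM c n hn m)
  map_add' a b := jext fun v x => by
    show toLin ((c : G → homObj M μ) x⁻¹ + n v) (M.ρ x⁻¹ (a + b)) =
      toLin ((c : G → homObj M μ) x⁻¹ + n v) (M.ρ x⁻¹ a) +
        toLin ((c : G → homObj M μ) x⁻¹ + n v) (M.ρ x⁻¹ b)
    rw [map_add, map_add]
  map_smul' a b := jext fun v x => by
    show toLin ((c : G → homObj M μ) x⁻¹ + n v) (M.ρ x⁻¹ (a • b)) =
      a • toLin ((c : G → homObj M μ) x⁻¹ + n v) (M.ρ x⁻¹ b)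
    rw [map_smul, map_smul]

lemma jfn_bLin (c : ↥(𝒰.Z₁ (homObj M μ))) (n : ι → homObj M μ)
    (hn : ∀ v (d : Gv v), (c : G → homObj M μ) (r v d) = (homObj M μ).ρ (r v d) (n v) - n v)
    (m : M) (v : ι) (x : G) :
    jfn (bLin r M hM c n hn m) v x = toLin ((c : G → homObj M μ) x⁻¹ + n v) (M.ρ x⁻¹ m) := rfl

include hM in
/-- **Exactness at `H¹(Hom_k(M, μ))`, key step**: the class of a level cocycle `c` dies in
`H¹(Hom_k(M, J))` iff `c` restricts to a coboundary on every `Gv v`. -/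
theorem H1map_diag_eq_zero_iff (c : ↥(𝒰.Z₁ (homObj M μ))) :
    𝒰.H1map (homPost M (diag (r := r) hμ).1) (shortExact_hom r hμ M).equivariant_left
        (𝒰.H1π (homObj M μ) c) = 0 ↔
      ∀ v, ∃ n : homObj M μ, ∀ d : Gv v,
        (c : G → homObj M μ) (r v d) = (homObj M μ).ρ (r v d) n - n := by
  rw [LevelStr.H1map_H1π, LevelStr.H1π_eq_zero_iff, LevelStr.coe_Z₁map]
  constructor
  · rintro ⟨Φ, hΦ⟩ v
    refine ⟨homPost M (ev 𝒰 r μ v) Φ, fun d => homObj.ext fun m => ?_⟩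
    have h1 := congrArg (fun e : homObj M (JObj 𝒰 r μ) => ev 𝒰 r μ v (toLin e m))
      (congrFun hΦ (r v d))
    simp only [d₀₁_hom_apply, LevelStr.comp₁_apply, toLin_sub, LinearMap.sub_apply, toLin_ρ,
      toLin_homPost, map_sub, ev_ρ] at h1
    rw [toLin_sub, LinearMap.sub_apply, toLin_ρ, toLin_homPost, toLin_homPost, h1]
    exact (evLin_diag (r := r) hμ v _).symm
  · intro h
    choose n hn using h
    refine ⟨ofLin (bLin r M hM c n hn), ?_⟩
    funext g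
    refine homObj.ext fun m => jext fun v x => ?_
    have hcoc := (mem_cocycles₁_iff (c : G → homObj M μ)).1 c.2.1
    rw [d₀₁_hom_apply, LevelStr.comp₁_apply, toLin_sub, LinearMap.sub_apply, jfn_sub, toLin_ρ,
      jfn_ρ, toLin_ofLin, jfn_bLin, jfn_bLin, toLin_homPost]
    have h1 : (g⁻¹ * x)⁻¹ = x⁻¹ * g := by group
    rw [h1, hcoc, map_mul, Module.End.mul_apply, ← Module.End.mul_apply (M.ρ g), ← map_mul,
      mul_inv_cancel, map_one, Module.End.one_apply]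
    have h2 : (homObj M μ).ρ x⁻¹ ((c : G → homObj M μ) g) + (c : G → homObj M μ) x⁻¹ + n v =
        ((c : G → homObj M μ) x⁻¹ + n v) + (homObj M μ).ρ x⁻¹ ((c : G → homObj M μ) g) := by
      abel
    rw [h2, toLin_add, LinearMap.add_apply, add_sub_cancel_left, toLin_ρ, inv_inv,
      ← Module.End.mul_apply, ← map_mul, mul_inv_cancel, map_one, Module.End.one_apply]
    rfl

end sequence

/-! ### Localisation maps on `H¹` and the packaged Formula (A) -/

section localisation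

variable (r)

/-- a cochain restricts to a coboundary on every local group -/
def IsLocallyTrivial (A : Rep.{u} k G) (c : G → A) : Prop :=
  ∀ v, ∃ n : A, ∀ d : Gv v, c (r v d) = A.ρ (r v d) n - n

variable (𝒰v : ∀ v, LevelStr (Gv v)) (hcont : ∀ v, IsCont (𝒰v v) 𝒰 (r v))

lemma isEquivariant_res_id (v : ι) (A : Rep.{u} k G) :
    IsEquivariant (r v) A (Rep.res (r v) A) (LinearMap.id : A →ₗ[k] A) := fun _ _ => rfl

/-- the localisation map `H¹(𝒰; A) → ∏_v H¹(𝒰v v; res A)` -/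
def locH1 (A : Rep.{u} k G) : 𝒰.H1 A →ₗ[k] ∀ v, (𝒰v v).H1 (Rep.res (r v) A) :=
  LinearMap.pi fun v => Dualizing59.H1map (hcont v) (isEquivariant_res_id r v A)

lemma locH1_H1π_eq_zero_iff (A : Rep.{u} k G) (c : ↥(𝒰.Z₁ A)) :
    locH1 r 𝒰v hcont A (𝒰.H1π A c) = 0 ↔ IsLocallyTrivial r A (c : G → A) := by
  rw [funext_iff]
  refine forall_congr' fun v => ?_
  show Dualizing59.H1map (hcont v) (isEquivariant_res_id r v A) (𝒰.H1π A c) = 0 ↔ _
  rw [Dualizing59.H1map_H1π, LevelStr.H1π_eq_zero_iff, Dualizing59.coe_Z₁map]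
  constructor
  · rintro ⟨n, hn⟩
    refine ⟨n, fun d => ?_⟩
    have := congrFun hn d
    rw [d₀₁_hom_apply] at this
    exact this.symm
  · rintro ⟨n, hn⟩
    refine ⟨n, ?_⟩
    funext d
    rw [d₀₁_hom_apply]
    exact (hn d).symm

end localisation

section packaged

variable (r)
variable [Nonempty ι] (hμ : ∃ U ∈ 𝒰.levels, ∀ s ∈ U, ∀ m : μ, μ.ρ s m = m)
variable (M : Rep.{u} k G) [Module.Finite k M] (hM : 𝒰.IsSmooth M)
variable (𝒰v : ∀ v, LevelStr (Gv v)) (hcont : ∀ v, IsCont (𝒰v v) 𝒰 (r v))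

/-- **Exactness at `H¹(Hom_k(M, μ))`, cocycle form.** -/
theorem H1π_mem_range_delta_iff (c : ↥(𝒰.Z₁ (homObj M μ))) :
    𝒰.H1π (homObj M μ) c ∈ LinearMap.range (delta r hμ M hM) ↔
      IsLocallyTrivial r (homObj M μ) (c : G → homObj M μ) := by
  rw [mem_range_delta_iff, H1map_diag_eq_zero_iff r hμ M hM]
  rfl

/-- **Exactness at `H¹(Hom_k(M, μ))`.** -/
theorem exact_delta_locH1 :
    Function.Exact (delta r hμ M hM) (locH1 r 𝒰v hcont (homObj M μ)) := by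
  intro x
  obtain ⟨c, rfl⟩ := Submodule.mkQ_surjective _ x
  show locH1 r 𝒰v hcont (homObj M μ) (𝒰.H1π (homObj M μ) c) = 0 ↔ _
  rw [locH1_H1π_eq_zero_iff, ← H1π_mem_range_delta_iff r hμ M hM]
  rfl

theorem range_delta_eq_ker_locH1 :
    LinearMap.range (delta r hμ M hM) = LinearMap.ker (locH1 r 𝒰v hcont (homObj M μ)) :=
  ((exact_delta_locH1 r hμ M hM 𝒰v hcont).linearMap_ker_eq).symm

theorem ker_delta_eq_range_frobY :
    LinearMap.ker (delta r hμ M hM) = LinearMap.range (frobY r hμ M hM) :=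
  (exact_frobY_delta r hμ M hM).linearMap_ker_eq

/-- **Formula (A)**: `coker (∏_v Hom_{Gv v}(M, μ) → Hom_G(M, Y)) ≃ ker (H¹(M') → ∏_v H¹(Gv v, M'))`
for `M' = Hom_k(M, μ)`. -/
noncomputable def formulaA :
    (eqHom M (YObj (r := r) hμ) ⧸ LinearMap.range (frobY r hμ M hM)) ≃ₗ[k]
      LinearMap.ker (locH1 r 𝒰v hcont (homObj M μ)) :=
  (Submodule.quotEquivOfEq _ _ (ker_delta_eq_range_frobY r hμ M hM).symm).trans <|
    ((delta r hμ M hM).quotKerEquivRange).trans <|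
      LinearEquiv.ofEq _ _ (range_delta_eq_ker_locH1 r hμ M hM 𝒰v hcont)

end packaged

/-! ### Transport to a module `M'` in perfect equivariant duality with `M` -/

section transport

variable (r)
variable [Nonempty ι] (hμ : ∃ U ∈ 𝒰.levels, ∀ s ∈ U, ∀ m : μ, μ.ρ s m = m)
variable (M : Rep.{u} k G) [Module.Finite k M] (hM : 𝒰.IsSmooth M)
variable (𝒰v : ∀ v, LevelStr (Gv v)) (hcont : ∀ v, IsCont (𝒰v v) 𝒰 (r v))
variable {M' : Rep.{u} k G} (B : M' →ₗ[k] M →ₗ[k] μ)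
  (hB : ∀ (g : G) (f : M') (m : M), B (M'.ρ g f) m = μ.ρ g (B f (M.ρ g⁻¹ m)))
  (hbij : Function.Bijective B)

/-- the pairing as a linear equivalence `M' ≃ Hom_k(M, μ)` -/
noncomputable def pairEquiv : M' ≃ₗ[k] homObj M μ :=
  (LinearEquiv.ofBijective B hbij).trans homObj.linEquiv.symm

@[simp] lemma toLin_pairEquiv (f : M') (m : M) : toLin (pairEquiv M B hbij f) m = B f m := rfl

include hB in
lemma pairEquiv_isEquivariant :
    LevelStr.IsEquivariant (A := M') (B := homObj M μ) (pairEquiv M B hbij).toLinearMap := by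
  intro g f
  refine homObj.ext fun m => ?_
  show toLin (pairEquiv M B hbij (M'.ρ g f)) m = _
  rw [toLin_pairEquiv, toLin_ρ, hB]
  rfl

include hB in
lemma pairEquiv_symm_isEquivariant :
    LevelStr.IsEquivariant (A := homObj M μ) (B := M') (pairEquiv M B hbij).symm.toLinearMap := by
  intro g f
  apply (pairEquiv M B hbij).injective
  have h := pairEquiv_isEquivariant M B hB hbij g ((pairEquiv M B hbij).symm f)
  simp only [LinearEquiv.coe_coe, LinearEquiv.apply_symm_apply] at h ⊢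
  exact h.symm

/-- the isomorphism `H¹(M') ≃ H¹(Hom_k(M, μ))` induced by the pairing -/
noncomputable def pairH1 : 𝒰.H1 M' ≃ₗ[k] 𝒰.H1 (homObj M μ) where
  toLinearMap := 𝒰.H1map _ (pairEquiv_isEquivariant M B hB hbij)
  invFun := 𝒰.H1map _ (pairEquiv_symm_isEquivariant M B hB hbij)
  left_inv x := by
    obtain ⟨c, rfl⟩ := Submodule.mkQ_surjective _ x
    show 𝒰.H1π M' _ = 𝒰.H1π M' c
    congr 1
    apply Subtype.ext
    funext g
    exact (pairEquiv M B hbij).symm_apply_apply _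
  right_inv x := by
    obtain ⟨c, rfl⟩ := Submodule.mkQ_surjective _ x
    show 𝒰.H1π (homObj M μ) _ = 𝒰.H1π (homObj M μ) c
    congr 1
    apply Subtype.ext
    funext g
    exact (pairEquiv M B hbij).apply_symm_apply _

include hB in
lemma isLocallyTrivial_pair_iff (c : G → M') :
    IsLocallyTrivial r (homObj M μ) (fun g => pairEquiv M B hbij (c g)) ↔
      IsLocallyTrivial r M' c := by
  refine forall_congr' fun v => ?_
  constructor
  · rintro ⟨n, hn⟩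
    refine ⟨(pairEquiv M B hbij).symm n, fun d => ?_⟩
    apply (pairEquiv M B hbij).injective
    have h := pairEquiv_isEquivariant M B hB hbij (r v d) ((pairEquiv M B hbij).symm n)
    simp only [LinearEquiv.coe_coe, LinearEquiv.apply_symm_apply] at h
    rw [map_sub, h, LinearEquiv.apply_symm_apply]
    exact hn d
  · rintro ⟨n, hn⟩
    refine ⟨pairEquiv M B hbij n, fun d => ?_⟩
    have h := pairEquiv_isEquivariant M B hB hbij (r v d) n
    simp only [LinearEquiv.coe_coe] at h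
    show pairEquiv M B hbij (c (r v d)) = _
    rw [hn d, map_sub, h]

/-- the connecting map with values in `H¹(M')` -/
noncomputable def delta' : eqHom M (YObj (r := r) hμ) →ₗ[k] 𝒰.H1 M' :=
  (pairH1 M B hB hbij).symm.toLinearMap ∘ₗ delta r hμ M hM

/-- **Exactness at `Hom_G(M, Y)`** (pairing form). -/
theorem exact_frobY_delta' :
    Function.Exact (frobY r hμ M hM) (delta' r hμ M hM B hB hbij) := by
  intro φ
  rw [← exact_frobY_delta r hμ M hM φ]
  show (pairH1 M B hB hbij).symm (delta r hμ M hM φ) = 0 ↔ _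
  rw [LinearEquiv.map_eq_zero_iff]

/-- **Exactness at `H¹(M')`** (pairing form, cocycle statement). -/
theorem H1π_mem_range_delta'_iff (c : ↥(𝒰.Z₁ M')) :
    𝒰.H1π M' c ∈ LinearMap.range (delta' r hμ M hM B hB hbij) ↔
      IsLocallyTrivial r M' (c : G → M') := by
  rw [← isLocallyTrivial_pair_iff r M B hB hbij]
  have h1 := H1π_mem_range_delta_iff r hμ M hM
    (𝒰.Z₁map _ (pairEquiv_isEquivariant M B hB hbij) c)
  rw [show (fun g => pairEquiv M B hbij ((c : G → M') g)) =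
    ((𝒰.Z₁map _ (pairEquiv_isEquivariant M B hB hbij) c : ↥(𝒰.Z₁ (homObj M μ))) :
      G → homObj M μ) from rfl, ← h1]
  constructor
  · rintro ⟨φ, hφ⟩
    refine ⟨φ, ?_⟩
    have := congrArg (pairH1 M B hB hbij) hφ
    rw [delta', LinearMap.comp_apply, LinearEquiv.coe_coe, LinearEquiv.apply_symm_apply] at this
    exact this
  · rintro ⟨φ, hφ⟩
    refine ⟨φ, ?_⟩
    rw [delta', LinearMap.comp_apply, hφ, LinearEquiv.coe_coe]
    exact (pairH1 (𝒰 := 𝒰) M B hB hbij).symm_apply_apply (𝒰.H1π M' c)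

/-- **Exactness at `H¹(M')`** (pairing form). -/
theorem exact_delta'_locH1 :
    Function.Exact (delta' r hμ M hM B hB hbij) (locH1 r 𝒰v hcont M') := by
  intro x
  obtain ⟨c, rfl⟩ := Submodule.mkQ_surjective _ x
  show locH1 r 𝒰v hcont M' (𝒰.H1π M' c) = 0 ↔ _
  rw [locH1_H1π_eq_zero_iff, ← H1π_mem_range_delta'_iff r hμ M hM B hB hbij]
  rfl

/-- **Formula (A)**, pairing form:
`coker (∏_v Hom_{Gv v}(M, μ) → Hom_G(M, Y)) ≃ ker (H¹(M') → ∏_v H¹(Gv v, M'))`. -/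
noncomputable def formulaA' :
    (eqHom M (YObj (r := r) hμ) ⧸ LinearMap.range (frobY r hμ M hM)) ≃ₗ[k]
      LinearMap.ker (locH1 r 𝒰v hcont M') :=
  (Submodule.quotEquivOfEq _ _
      ((exact_frobY_delta' r hμ M hM B hB hbij).linearMap_ker_eq).symm).trans <|
    ((delta' r hμ M hM B hB hbij).quotKerEquivRange).trans <|
      LinearEquiv.ofEq _ _
        ((exact_delta'_locH1 r hμ M hM 𝒰v hcont B hB hbij).linearMap_ker_eq).symm

end transport

end Fermat.Agent.S55.Dualizing11
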