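/-
S55 / 44-DUALIZING, second seat (helper11): formula (A) plugged into helper59's count.

`Dualizing59.sha_duality_of_beta` asks for a map `β : Hom_G(M, Y) → H¹(M')` with
`range β = Sha¹(M')` and `ker β = range α`.  Formula (A) (`Dualizing11.delta'`) is such a map.
Result: `Sha¹(M') ≃ Sha²(M)^*` from the trace, the global duality and the local dualities only.
-/
import Fermat.Agent.S55.Dualizing59.Count
import Fermat.Agent.S55.Dualizing11.FormulaA

set_option autoImplicit false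
set_option linter.unusedSectionVars false

universe u

open CategoryTheory groupCohomology

namespace Fermat.Agent.S55.Dualizing11

open Fermat.Agent.S55.Profin15 Fermat.Agent.S55.Dualizing59

variable {k : Type u} [Field k] {G : Type u} [Group G]
  {𝒰 : LevelStr G} {ι : Type} [Fintype ι] [Nonempty ι] {Gv : ι → Type u} [∀ v, Group (Gv v)]
  {r : ∀ v, Gv v →* G} {𝒰v : ∀ v, LevelStr (Gv v)} (hr : ∀ v, IsCont (𝒰v v) 𝒰 (r v))
  {μ : Rep.{u} k G} (hμ : ∃ U ∈ 𝒰.levels, ∀ s ∈ U, ∀ m : μ, μ.ρ s m = m)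
  (inv : ∀ v, (𝒰v v).H2 (Rep.res (r v) μ) →ₗ[k] k)
  (M : Rep.{u} k G) [Module.Finite k M] (hM : 𝒰.IsSmooth M)
  {M' : Rep.{u} k G} (B : M' →ₗ[k] M →ₗ[k] μ)
  (hB : ∀ (g : G) (f : M') (m : M), B (M'.ρ g f) m = μ.ρ g (B f (M.ρ g⁻¹ m)))
  (hbij : Function.Bijective B)

/-- `frobY` is helper59's `alpha` -/
lemma frobY_eq_alpha : frobY r hμ M hM = alpha hμ hM := rfl

/-- the kernel of `locH1` is helper59's `Sha1` -/
lemma ker_locH1_eq_Sha1 (A : Rep.{u} k G) :
    LinearMap.ker (locH1 r 𝒰v hr A) = Sha1 hr A := by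
  ext x
  rw [mem_Sha1_iff, LinearMap.mem_ker, funext_iff]
  rfl

theorem range_delta'_eq_Sha1 :
    LinearMap.range (delta' r hμ M hM B hB hbij) = Sha1 hr M' := by
  rw [← ker_locH1_eq_Sha1 hr M']
  exact ((exact_delta'_locH1 r hμ M hM 𝒰v hr B hB hbij).linearMap_ker_eq).symm

theorem ker_delta'_eq_range_alpha :
    LinearMap.ker (delta' r hμ M hM B hB hbij) = LinearMap.range (alpha hμ hM) := by
  rw [← frobY_eq_alpha hμ M hM]
  exact (exact_frobY_delta' r hμ M hM B hB hbij).linearMap_ker_eq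

include hM hB hbij in
/-- **Abstract Poitou–Tate duality `Sha¹(M') ≃ Sha²(M)^*`** from: a dualizing trace `Λ`,
bijectivity of the global `theta` at `M`, surjectivity of the local `theta`s at `M`, and a perfect
equivariant pairing `M' × M → μ`. -/
theorem sha_duality {Λ : 𝒰.H2 (YObj (r := r) hμ) →ₗ[k] k} (hΛ : IsTrace hr hμ inv Λ)
    (hglob : Function.Bijective (theta 𝒰 (YObj (r := r) hμ) Λ M))
    (hloc : ∀ v, Function.Surjective (thetaLoc (𝒰v := 𝒰v) inv v M)) :
    Nonempty (↥(Sha1 hr M') ≃ₗ[k] Module.Dual k ↥(Sha2 hr M)) :=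
  sha_duality_of_beta hr hμ inv hM hΛ (delta' r hμ M hM B hB hbij)
    (range_delta'_eq_Sha1 hr hμ M hM B hB hbij) (ker_delta'_eq_range_alpha hμ M hM B hB hbij)
    hglob hloc

include hM hB hbij in
/-- finite-dimensionality of `Sha¹(M')` and equality of dimensions, given finiteness of
`Sha²(M)`. -/
theorem finrank_Sha1_eq_finrank_Sha2 {Λ : 𝒰.H2 (YObj (r := r) hμ) →ₗ[k] k}
    (hΛ : IsTrace hr hμ inv Λ)
    (hglob : Function.Bijective (theta 𝒰 (YObj (r := r) hμ) Λ M))
    (hloc : ∀ v, Function.Surjective (thetaLoc (𝒰v := 𝒰v) inv v M))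
    [Module.Finite k ↥(Sha2 hr M)] :
    Module.Finite k ↥(Sha1 hr M') ∧
      Module.finrank k ↥(Sha1 hr M') = Module.finrank k ↥(Sha2 hr M) := by
  obtain ⟨e⟩ := sha_duality hr hμ inv M hM B hB hbij hΛ hglob hloc
  exact finrank_Sha1_eq_of_equiv hr e

end Fermat.Agent.S55.Dualizing11
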