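/-
S55 / 44-DUALIZING, second seat (helper11): helper59's LITERAL target `formulaA` (report #1936).
-/
import Fermat.Agent.S55.Dualizing11.Duality

set_option autoImplicit false
set_option linter.unusedSectionVars false

universe u

open CategoryTheory groupCohomology

namespace Fermat.Agent.S55.Dualizing11

open Fermat.Agent.S55.Profin15 Fermat.Agent.S55.Dualizing59

variable {k : Type u} [Field k] {G : Type u} [Group G]
  {𝒰 : LevelStr G} {ι : Type} [Fintype ι] {Gv : ι → Type u} [∀ v, Group (Gv v)]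
  {r : ∀ v, Gv v →* G} {𝒰v : ∀ v, LevelStr (Gv v)} (hr : ∀ v, IsCont (𝒰v v) 𝒰 (r v))
  {μ : Rep.{u} k G} (hμ : ∃ U ∈ 𝒰.levels, ∀ s ∈ U, ∀ m : μ, μ.ρ s m = m)

/-- the two forms of equivariance of a pairing are equivalent -/
lemma pairing_equivariant' {M M' : Rep.{u} k G} (B : M' →ₗ[k] M →ₗ[k] μ)
    (hBeq : ∀ (g : G) (m' : M') (m : M), B (M'.ρ g m') (M.ρ g m) = μ.ρ g (B m' m))
    (g : G) (f : M') (m : M) : B (M'.ρ g f) m = μ.ρ g (B f (M.ρ g⁻¹ m)) := by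
  rw [← hBeq, ← Module.End.mul_apply, ← map_mul, mul_inv_cancel, map_one, Module.End.one_apply]

/-- **Formula (A)**, in the literal form requested by helper59 (#1936). -/
theorem formulaA59 [Nonempty ι] (M M' : Rep.{u} k G) [Module.Finite k M] (hM : 𝒰.IsSmooth M)
    (B : M' →ₗ[k] M →ₗ[k] μ)
    (hBeq : ∀ (g : G) (m' : M') (m : M), B (M'.ρ g m') (M.ρ g m) = μ.ρ g (B m' m))
    (hBbij : Function.Bijective B) :
    ∃ β : eqHom M (YObj (r := r) hμ) →ₗ[k] 𝒰.H1 M',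
      LinearMap.range β = Sha1 hr M' ∧ LinearMap.ker β = LinearMap.range (alpha hμ hM) :=
  ⟨delta' r hμ M hM B (pairing_equivariant' B hBeq) hBbij,
    range_delta'_eq_Sha1 hr hμ M hM B (pairing_equivariant' B hBeq) hBbij,
    ker_delta'_eq_range_alpha hμ M hM B (pairing_equivariant' B hBeq) hBbij⟩

/-- **`Sha¹(M') ≃ Sha²(M)^*`** with the pairing hypothesis in the `⟨g m', g m⟩ = g ⟨m', m⟩` form. -/
theorem sha_duality59 [Nonempty ι] (inv : ∀ v, (𝒰v v).H2 (Rep.res (r v) μ) →ₗ[k] k)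
    {Λ : 𝒰.H2 (YObj (r := r) hμ) →ₗ[k] k} (hΛ : IsTrace hr hμ inv Λ)
    (M M' : Rep.{u} k G) [Module.Finite k M] (hM : 𝒰.IsSmooth M)
    (B : M' →ₗ[k] M →ₗ[k] μ)
    (hBeq : ∀ (g : G) (m' : M') (m : M), B (M'.ρ g m') (M.ρ g m) = μ.ρ g (B m' m))
    (hBbij : Function.Bijective B)
    (hglob : Function.Bijective (theta 𝒰 (YObj (r := r) hμ) Λ M))
    (hloc : ∀ v, Function.Surjective (thetaLoc (𝒰v := 𝒰v) inv v M)) :
    Nonempty (↥(Sha1 hr M') ≃ₗ[k] Module.Dual k ↥(Sha2 hr M)) :=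
  sha_duality hr hμ inv M hM B (pairing_equivariant' B hBeq) hBbij hΛ hglob hloc

end Fermat.Agent.S55.Dualizing11
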