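/-
S55 / 44-DUALIZING, second seat (helper11): right exactness of `H²` for BIG smooth modules.

`Dualizing59.RightExactH2 k 𝒰` is stated for finite-dimensional smooth modules.  Every level
`2`-cocycle of a smooth module has finitely many values, whose orbits are finite; so it lives in
a finite-dimensional subrepresentation.  Hence right exactness extends to arbitrary smooth
modules, in particular to `J → Y` (plug (P1b) `hJY` of `Dualizing59.exists_isTrace`).
-/
import Fermat.Agent.S55.Dualizing59.Lambda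

set_option autoImplicit false
set_option linter.unusedSectionVars false
set_option linter.style.haveILetI false

universe u

open CategoryTheory groupCohomology

namespace Fermat.Agent.S55.Dualizing11

open Fermat.Agent.S55.Profin15 Fermat.Agent.S55.Dualizing59

variable {k : Type u} [Field k] {G : Type u} [Group G] {𝒰 : LevelStr G}

/-! ### subrepresentations -/

section subRep

variable (X : Rep.{u} k G) (W : Submodule k X) (hW : ∀ g, W ≤ W.comap (X.ρ g))

/-- a `G`-stable subspace as a representation -/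
def subRep : Rep.{u} k G := Rep.of (X.ρ.subrepresentation W hW)

/-- the element of `subRep` attached to an element of `W` -/
def subRep.mk (w : W) : subRep X W hW := w

variable {X W hW}

/-- the underlying element of `X` -/
def subRep.val (w : subRep X W hW) : X := (w : W).1

lemma subRep.val_mem (w : subRep X W hW) : subRep.val w ∈ W := (w : W).2

lemma subRep.ext {w w' : subRep X W hW} (h : subRep.val w = subRep.val w') : w = w' :=
  Subtype.ext h

@[simp] lemma subRep.val_mk (w : W) : subRep.val (subRep.mk X W hW w) = w.1 := rfl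

@[simp] lemma subRep.val_ρ (g : G) (w : subRep X W hW) :
    subRep.val ((subRep X W hW).ρ g w) = X.ρ g (subRep.val w) := rfl

@[simp] lemma subRep.val_add (w w' : subRep X W hW) :
    subRep.val (w + w') = subRep.val w + subRep.val w' := rfl

@[simp] lemma subRep.val_sub (w w' : subRep X W hW) :
    subRep.val (w - w') = subRep.val w - subRep.val w' := rfl

variable (X W hW)

/-- the inclusion of a subrepresentation -/
def subIncl : eqHom (subRep X W hW) X := ⟨W.subtype, fun _ _ => rfl⟩

@[simp] lemma subIncl_apply (w : subRep X W hW) : (subIncl X W hW).1 w = subRep.val w := rfl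

lemma subRep_isSmooth (hX : 𝒰.IsSmooth X) : 𝒰.IsSmooth (subRep X W hW) := by
  intro w
  obtain ⟨U, hU, h⟩ := hX (subRep.val w)
  exact ⟨U, hU, fun s hs => subRep.ext (h s hs)⟩

lemma subRep_finite (hfg : W.FG) : Module.Finite k (subRep X W hW) :=
  (Module.Finite.iff_fg (N := W)).2 hfg

end subRep

/-! ### the span of the orbits of a finite set -/

section orbitSpan

variable (X : Rep.{u} k G)

/-- the span of the `G`-orbits of a set -/
def orbitSpan (T : Set X) : Submodule k X :=
  Submodule.span k {x | ∃ g : G, ∃ t ∈ T, X.ρ g t = x}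

lemma subset_orbitSpan (T : Set X) : T ⊆ orbitSpan X T := fun t ht =>
  Submodule.subset_span ⟨1, t, ht, by simp⟩

lemma orbitSpan_stable (T : Set X) (g : G) : orbitSpan X T ≤ (orbitSpan X T).comap (X.ρ g) := by
  rw [orbitSpan, Submodule.span_le]
  rintro _ ⟨h, t, ht, rfl⟩
  show X.ρ g (X.ρ h t) ∈ orbitSpan X T
  rw [← Module.End.mul_apply, ← map_mul]
  exact Submodule.subset_span ⟨g * h, t, ht, rfl⟩

lemma orbitSpan_fg (hX : 𝒰.IsSmooth X) {T : Set X} (hT : T.Finite) : (orbitSpan X T).FG := by
  have hfin : {x | ∃ g : G, ∃ t ∈ T, X.ρ g t = x}.Finite := by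
    have h1 : {x | ∃ g : G, ∃ t ∈ T, X.ρ g t = x} = ⋃ t ∈ T, Set.range (fun g : G => X.ρ g t) := by
      ext x
      simp only [Set.mem_iUnion, Set.mem_range, exists_prop]
      constructor
      · rintro ⟨g, t, ht, rfl⟩
        exact ⟨t, ht, g, rfl⟩
      · rintro ⟨t, ht, g, rfl⟩
        exact ⟨g, t, ht, rfl⟩
    rw [h1]
    refine hT.biUnion fun t _ => ?_
    obtain ⟨U, hU, hfix⟩ := hX t
    have hc : 𝒰.IsConst₁ (fun g : G => X.ρ g t) :=
      ⟨U, hU, fun g s hs => by
        show X.ρ (g * s) t = X.ρ g t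
        rw [map_mul, Module.End.mul_apply, hfix s hs]⟩
    exact hc.finite_range
  exact Submodule.fg_span hfin

end orbitSpan

/-! ### right exactness for big modules -/

/-- **Right exactness of `H²` for arbitrary smooth modules**, from the finite-dimensional case. -/
theorem surjective_H2m_of_rightExactH2 (hRS : RightExactH2 k 𝒰) {P N : Rep.{u} k G}
    (hP : 𝒰.IsSmooth P) (hN : 𝒰.IsSmooth N) (π : eqHom P N) (hπ : Function.Surjective π.1) :
    Function.Surjective (H2m 𝒰 π) := by
  classical
  intro y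
  obtain ⟨z, rfl⟩ := Submodule.mkQ_surjective _ y
  -- the finite-dimensional subrepresentation of `N` containing the values of `z`
  have hzfin : (Set.range (z : G × G → N)).Finite := z.2.2.finite_range
  set TN : Set N := Set.range (z : G × G → N) with hTN
  set SN : Set N := {x | ∃ g : G, ∃ t ∈ TN, N.ρ g t = x} with hSN
  have hSNfin : SN.Finite := by
    have h1 : SN = ⋃ t ∈ TN, Set.range (fun g : G => N.ρ g t) := by
      ext x
      simp only [hSN, Set.mem_iUnion, Set.mem_range, exists_prop]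
      constructor
      · rintro ⟨g, t, ht, rfl⟩
        exact ⟨t, ht, g, rfl⟩
      · rintro ⟨t, ht, g, rfl⟩
        exact ⟨g, t, ht, rfl⟩
    rw [h1]
    refine hzfin.biUnion fun t _ => ?_
    obtain ⟨U, hU, hfix⟩ := hN t
    have hc : 𝒰.IsConst₁ (fun g : G => N.ρ g t) :=
      ⟨U, hU, fun g s hs => by
        show N.ρ (g * s) t = N.ρ g t
        rw [map_mul, Module.End.mul_apply, hfix s hs]⟩
    exact hc.finite_range
  set N₀ : Submodule k N := orbitSpan N TN with hN₀
  have hN₀st := orbitSpan_stable N TN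
  -- lift the spanning set
  choose! lift hlift using fun x : N => hπ x
  set TP : Set P := lift '' SN with hTP
  have hTPfin : TP.Finite := hSNfin.image lift
  set P₀ : Submodule k P := orbitSpan P TP with hP₀
  have hP₀st := orbitSpan_stable P TP
  -- `π` maps `P₀` into `N₀`
  have hmap : ∀ x ∈ P₀, π.1 x ∈ N₀ := by
    intro x hx
    have hle : P₀ ≤ N₀.comap π.1 := by
      rw [hP₀, orbitSpan, Submodule.span_le]
      rintro _ ⟨g, t, ⟨s, hs, rfl⟩, rfl⟩
      show π.1 (P.ρ g (lift s)) ∈ N₀
      have h1 := π.2 g (lift s)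
      simp only [MonoidHom.id_apply] at h1
      rw [h1, hlift]
      exact hN₀st g (Submodule.subset_span hs)
    exact hle hx
  -- the restricted map
  let π₀lin : subRep P P₀ hP₀st →ₗ[k] subRep N N₀ hN₀st := π.1.restrict hmap
  have hπ₀eq : π₀lin ∈ eqHom (subRep P P₀ hP₀st) (subRep N N₀ hN₀st) := by
    intro g w
    apply subRep.ext
    have h1 := π.2 g (subRep.val w)
    simp only [MonoidHom.id_apply] at h1
    exact h1
  let π₀ : eqHom (subRep P P₀ hP₀st) (subRep N N₀ hN₀st) := ⟨π₀lin, hπ₀eq⟩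
  have hπ₀surj : Function.Surjective π₀.1 := by
    intro w
    have hle : N₀ ≤ Submodule.map π.1 P₀ := by
      rw [hN₀, orbitSpan, Submodule.span_le]
      rintro x hx
      refine ⟨lift x, ?_, hlift x⟩
      exact subset_orbitSpan P TP ⟨x, hx, rfl⟩
    obtain ⟨p, hp, hpw⟩ := hle (subRep.val_mem w)
    exact ⟨subRep.mk P P₀ hP₀st ⟨p, hp⟩, subRep.ext hpw⟩
  -- the cocycle with values in `N₀`
  have hzmem : ∀ x : G × G, (z : G × G → N) x ∈ N₀ := fun x =>
    subset_orbitSpan N TN ⟨x, rfl⟩
  let z₀fn : G × G → subRep N N₀ hN₀st := fun x => subRep.mk N N₀ hN₀st ⟨(z : G × G → N) x, hzmem x⟩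
  have hz₀ : z₀fn ∈ 𝒰.Z₂ (subRep N N₀ hN₀st) := by
    refine (𝒰.mem_Z₂_iff _ _).2 ⟨(mem_cocycles₂_iff z₀fn).2 fun g h j => ?_, ?_⟩
    · apply subRep.ext
      exact (mem_cocycles₂_iff (z : G × G → N)).1 z.2.1 g h j
    · obtain ⟨U, hU, hc⟩ := z.2.2
      exact ⟨U, hU, fun g g' s s' hs hs' => subRep.ext (hc g g' s s' hs hs')⟩
  -- apply the finite-dimensional right exactness
  haveI : Module.Finite k (subRep P P₀ hP₀st) :=
    subRep_finite P P₀ hP₀st (orbitSpan_fg P hP hTPfin)
  haveI : Module.Finite k (subRep N N₀ hN₀st) :=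
    subRep_finite N N₀ hN₀st (orbitSpan_fg N hN hzfin)
  obtain ⟨w₀, hw₀⟩ := hRS _ _ inferInstance inferInstance (subRep_isSmooth P P₀ hP₀st hP)
    (subRep_isSmooth N N₀ hN₀st hN) π₀ hπ₀surj (𝒰.H2π _ ⟨z₀fn, hz₀⟩)
  refine ⟨H2m 𝒰 (subIncl P P₀ hP₀st) w₀, ?_⟩
  have hcomm : eqComp π (subIncl P P₀ hP₀st) = eqComp (subIncl N N₀ hN₀st) π₀ := by
    apply Subtype.ext
    apply LinearMap.ext
    intro w
    rfl
  have h1 : H2m 𝒰 π (H2m 𝒰 (subIncl P P₀ hP₀st) w₀) =
      H2m 𝒰 (subIncl N N₀ hN₀st) (H2m 𝒰 π₀ w₀) := by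
    rw [← LinearMap.comp_apply, ← H2m_comp, hcomm, H2m_comp, LinearMap.comp_apply]
  rw [h1, hw₀, H2m_H2π]
  congr 1

end Fermat.Agent.S55.Dualizing11
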