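/-
S55 / 44-DUALIZING, second seat (helper11): the abstract summit of route R3 / W59.

All of `Dualizing59` + `Dualizing11` assembled: from
* (P1) `RightExactH2 k 𝒰` (`cd ≤ 2`; finite-dimensional modules only),
* (P2) reciprocity `∑_v inv_v ∘ loc_v = 0` on `H²(μ)`,
* (P3) the base case of the global duality on the permutation modules `k^(G/V)`,
* (P4) surjectivity of the local dualities at `M`,
* a perfect equivariant pairing `M' × M → μ` and finiteness of `Sha²(M)`,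
we get `Sha¹(M')` finite-dimensional of the same dimension as `Sha²(M)`.
-/
import Fermat.Agent.S55.Dualizing11.Target59
import Fermat.Agent.S55.Dualizing11.BigRightExact

set_option autoImplicit false
set_option linter.unusedSectionVars false

universe u

open CategoryTheory groupCohomology

namespace Fermat.Agent.S55.Dualizing11

open Fermat.Agent.S55.Profin15 Fermat.Agent.S55.Dualizing59

variable {k : Type u} [Field k] {G : Type u} [Group G]
  {𝒰 : LevelStr G} {ι : Type} [Fintype ι] [Nonempty ι] {Gv : ι → Type u} [∀ v, Group (Gv v)]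
  {r : ∀ v, Gv v →* G} {𝒰v : ∀ v, LevelStr (Gv v)} (hr : ∀ v, IsCont (𝒰v v) 𝒰 (r v))
  {μ : Rep.{u} k G} (hμ : ∃ U ∈ 𝒰.levels, ∀ s ∈ U, ∀ m : μ, μ.ρ s m = m)
  (inv : ∀ v, (𝒰v v).H2 (Rep.res (r v) μ) →ₗ[k] k)

/-- (P1b) from (P1a): `H²(J) → H²(Y)` is surjective. -/
theorem surjective_H2m_qY (hRS : RightExactH2 k 𝒰) :
    Function.Surjective (H2m 𝒰 (qY (r := r) hμ)) :=
  surjective_H2m_of_rightExactH2 hRS JObj_isSmooth (YObj_isSmooth hμ) (qY (r := r) hμ)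
    (cokerProj_surjective _)

/-- existence of the dualizing trace from `cd ≤ 2` and reciprocity -/
theorem exists_isTrace_of_rightExactH2 (hRS : RightExactH2 k 𝒰)
    (hrec : ∀ x : 𝒰.H2 μ, ∑ v, inv v (loc₂ hr v μ x) = 0) :
    ∃ Λ, IsTrace hr hμ inv Λ :=
  exists_isTrace hr hμ inv (surjective_H2m_qY hμ hRS) hrec

/-- **Abstract Poitou–Tate (route R3)**: `Sha¹(M') ≃ Sha²(M)^*`. -/
theorem sha_duality_of_plugs (hRS : RightExactH2 k 𝒰)
    (hrec : ∀ x : 𝒰.H2 μ, ∑ v, inv v (loc₂ hr v μ x) = 0)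
    (hbase : ∀ Λ, IsTrace hr hμ inv Λ → ∀ U ∈ 𝒰.levels, ∃ V ∈ 𝒰.levels, V ≤ U ∧
      Function.Bijective (theta 𝒰 (YObj (r := r) hμ) Λ (coind (k := k) V k)))
    (M M' : Rep.{u} k G) [Module.Finite k M] (hM : 𝒰.IsSmooth M)
    (hloc : ∀ v, Function.Surjective (thetaLoc (𝒰v := 𝒰v) inv v M))
    (B : M' →ₗ[k] M →ₗ[k] μ)
    (hBeq : ∀ (g : G) (m' : M') (m : M), B (M'.ρ g m') (M.ρ g m) = μ.ρ g (B m' m))
    (hBbij : Function.Bijective B) :
    Nonempty (↥(Sha1 hr M') ≃ₗ[k] Module.Dual k ↥(Sha2 hr M)) := by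
  obtain ⟨Λ, hΛ⟩ := exists_isTrace_of_rightExactH2 hr hμ inv hRS hrec
  exact sha_duality59 hr hμ inv hΛ M M' hM B hBeq hBbij
    (theta_bijective 𝒰 _ Λ hRS (hbase Λ hΛ) M hM) hloc

/-- **Abstract Poitou–Tate (route R3), dimension form.** -/
theorem finrank_Sha1_eq_finrank_Sha2_of_plugs (hRS : RightExactH2 k 𝒰)
    (hrec : ∀ x : 𝒰.H2 μ, ∑ v, inv v (loc₂ hr v μ x) = 0)
    (hbase : ∀ Λ, IsTrace hr hμ inv Λ → ∀ U ∈ 𝒰.levels, ∃ V ∈ 𝒰.levels, V ≤ U ∧
      Function.Bijective (theta 𝒰 (YObj (r := r) hμ) Λ (coind (k := k) V k)))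
    (M M' : Rep.{u} k G) [Module.Finite k M] (hM : 𝒰.IsSmooth M)
    (hloc : ∀ v, Function.Surjective (thetaLoc (𝒰v := 𝒰v) inv v M))
    (B : M' →ₗ[k] M →ₗ[k] μ)
    (hBeq : ∀ (g : G) (m' : M') (m : M), B (M'.ρ g m') (M.ρ g m) = μ.ρ g (B m' m))
    (hBbij : Function.Bijective B) [Module.Finite k ↥(Sha2 hr M)] :
    Module.Finite k ↥(Sha1 hr M') ∧
      Module.finrank k ↥(Sha1 hr M') = Module.finrank k ↥(Sha2 hr M) := by
  obtain ⟨e⟩ := sha_duality_of_plugs hr hμ inv hRS hrec hbase M M' hM hloc B hBeq hBbij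
  exact finrank_Sha1_eq_of_equiv hr e

end Fermat.Agent.S55.Dualizing11
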