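/-
S55 / 44-DUALIZING, second seat (helper11): THE GLOBAL BASE CASE of route W59 from the literal
plugs of `Contract34`:  `LocDual26.Wire.GlobalBaseStatement`.

Generic part (`levelPlug_of_counts`): helper48's per-level plug `HBase48.LevelPlug` at the
`Dualizing59` objects (`J = JObj`, `Y = YObj`, `q = qY`, `P = PLoc`, `loc = locAll₂`,
`τ = tauMap`) for `N = k^(G/V)`, `V` a level acting trivially on the one-dimensional `μ`, from
* finiteness of `H²(N)` and of the local `H²`'s,
* local duality on `N`,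
* the cokernel bound `∑_v dim H²(G_v, N) ≤ dim range(loc) + 1`   (P6),
* the count `dim Sha²(N) ≤ dim Sha¹(N)`                           (P7'),
using the self-pairing `N × N → μ` of `PermCoind`.
Instance part: transport of the literal plugs (P5), (P6), (P7') from `perm p V` to `coind V 𝔽_p`.
-/
import Fermat.Agent.S55.HBase48
import Fermat.Agent.S55.Dualizing59.BaseCount
import Fermat.Agent.S55.Dualizing11.PermCoind
import Fermat.Agent.S55.LocDual26.Wire
import Fermat.Agent.S55.Profin15.ContractB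

set_option autoImplicit false
set_option linter.unusedSectionVars false
set_option linter.style.haveILetI false

universe u

open CategoryTheory groupCohomology Module ExtCitation

namespace Fermat.Agent.S55.Dualizing11

open Fermat.Agent.S55.Profin15 Fermat.Agent.S55.Dualizing59

section generic

variable {k : Type u} [Field k] {G : Type u} [Group G]
  {𝒰 : LevelStr G} {ι : Type} [Fintype ι] {Gv : ι → Type u} [∀ v, Group (Gv v)]
  {r : ∀ v, Gv v →* G} {𝒰v : ∀ v, LevelStr (Gv v)} (hr : ∀ v, IsCont (𝒰v v) 𝒰 (r v))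
  {μ : Rep.{u} k G} (hμ : ∃ U ∈ 𝒰.levels, ∀ s ∈ U, ∀ m : μ, μ.ρ s m = m)
  (inv : ∀ v, (𝒰v v).H2 (Rep.res (r v) μ) →ₗ[k] k)

/-- constructor of `HBase48.LevelPlug` with the instances of `P` found by unification -/
lemma levelPlug_mk {J Y : Rep.{u} k G} {Λ : 𝒰.H2 Y →ₗ[k] k} {q : eqHom J Y} {V : Subgroup G}
    (hfin : Module.Finite k (𝒰.H2 (coind (k := k) V k)))
    (P : Type u) [AddCommGroup P] [Module k P] [Module.Finite k P]
    (loc : 𝒰.H2 (coind (k := k) V k) →ₗ[k] P)
    (τ : eqHom (coind (k := k) V k) J →ₗ[k] Module.Dual k P)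
    (h1 : ∀ x, theta 𝒰 Y Λ (coind (k := k) V k) (eqComp q x) = τ x ∘ₗ loc)
    (h2 : Function.Bijective τ)
    (h3 : finrank k P ≤ finrank k ↥(LinearMap.range loc) + 1)
    (h4 : ∃ x₀ : eqHom (coind (k := k) V k) J, x₀ ≠ 0 ∧ eqComp q x₀ = 0)
    (h6 : finrank k ↥(LinearMap.ker loc) ≤
      finrank k (eqHom (coind (k := k) V k) Y ⧸
        LinearMap.range (HBase48.qComp q (coind (k := k) V k)))) :
    HBase48.LevelPlug 𝒰 Λ q V := by
  refine ⟨hfin, P, ‹AddCommGroup P›, ‹Module k P›, ‹Module.Finite k P›, loc, τ, h1, h2, h3, h4,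
    ?_⟩
  exact h6

/-- **helper48's per-level plug at the `Dualizing59` objects**, for `N = k^(G/V)`. -/
theorem levelPlug_of_counts [Nonempty ι] {Λ : 𝒰.H2 (YObj (r := r) hμ) →ₗ[k] k}
    (hΛ : IsTrace hr hμ inv Λ) {V : Subgroup G} (hV : V ∈ 𝒰.levels)
    (hVμ : ∀ s ∈ V, ∀ m : μ, μ.ρ s m = m)
    (m₀ : μ) (hm₀ : Function.Bijective (fun c : k => c • m₀))
    (hfin : Module.Finite k (𝒰.H2 (coind (k := k) V k)))
    (hfinLoc : ∀ v, Module.Finite k ((𝒰v v).H2 (Rep.res (r v) (coind (k := k) V k))))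
    (hloc : ∀ v, Function.Bijective (thetaLoc (𝒰v := 𝒰v) inv v (coind (k := k) V k)))
    (hcoker : ∑ v, finrank k ((𝒰v v).H2 (Rep.res (r v) (coind (k := k) V k))) ≤
      finrank k ↥(LinearMap.range (locAll₂ hr (coind (k := k) V k))) + 1)
    (hcount : finrank k ↥(Sha2 hr (coind (k := k) V k)) ≤
      finrank k ↥(Sha1 hr (coind (k := k) V k))) :
    HBase48.LevelPlug 𝒰 Λ (qY (r := r) hμ) V := by
  haveI := 𝒰.normal V hV
  haveI := 𝒰.finiteIndex V hV
  haveI : Finite (G ⧸ V) := Subgroup.finite_quotient_of_finiteIndex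
  letI := Fintype.ofFinite (G ⧸ V)
  have hN : 𝒰.IsSmooth (coind (k := k) V k) := coind_isSmooth 𝒰 hV
  obtain ⟨B, hBeq, hBbij⟩ := exists_selfPair V μ hVμ m₀ hm₀
  have hμ0 : ∃ m : μ, m ≠ 0 := by
    refine ⟨m₀, fun h0 => ?_⟩
    have h1 : (fun c : k => c • m₀) 1 = (fun c : k => c • m₀) 0 := by
      simp only [h0, smul_zero]
    exact one_ne_zero (hm₀.1 h1)
  haveI := hfinLoc
  have key := @levelPlug_mk k _ G _ 𝒰 _ _ Λ (qY (r := r) hμ) V hfin
    (PLoc 𝒰v r (coind (k := k) V k)) inferInstance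
    (show Module k (PLoc 𝒰v r (coind (k := k) V k)) from inferInstance)
    (show Module.Finite k (PLoc 𝒰v r (coind (k := k) V k)) from inferInstance)
  refine key (locAll₂ hr (coind (k := k) V k)) (tauMap (𝒰v := 𝒰v) inv hN)
    (fun x => theta_qY_comp hr hμ inv hΛ hN x) (tauMap_bijective inv hN hloc) ?_
    (exists_ne_zero_comp_eq_zero hμ hVμ hμ0) ?_
  · haveI : ∀ v, Module.Free k ((𝒰v v).H2 (Rep.res (r v) (coind (k := k) V k))) :=
      fun v => inferInstance
    have h := Module.finrank_pi_fintype k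
      (M := fun v => (𝒰v v).H2 (Rep.res (r v) (coind (k := k) V k)))
    exact (le_of_eq h).trans hcoker
  · exact finrank_ker_locAll₂_le hr hμ (coind (k := k) V k) (coind (k := k) V k) hN B hBeq hBbij
      hcount

end generic

/-! ### The instance of `Contract34` / `R3Wire52` -/

section instance_

open Fermat.Agent.S55.Contract34 Fermat.Agent.S55.R3Wire52
open Fermat.Agent.Lib.FrobeniusExists (Qb GQ)

variable {p : ℕ} [Fact p.Prime] {S : Finset Nat.Primes}

/-- `perm p V ≅ coind V 𝔽_p` as an equivariant isomorphism (helper59's `EqIso`) -/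
noncomputable def permEqIso (p : ℕ) [Fact p.Prime] (V : Subgroup GQ) [Finite (GQ ⧸ V)] :
    EqIso (perm p V) (coind (k := ZMod p) V (ZMod p)) :=
  ⟨permCoind p V, permCoind_equivariant p V⟩

/-- helper59's total localisation map at the fixed instance is helper15's `locTotal` -/
lemma locAll₂_eq_locTotal (M : Rep.{0} (ZMod p) GQ) :
    locAll₂ (hr S) M = Profin15.Plug.locTotal p S M := by
  apply LinearMap.ext
  intro z
  funext q
  exact LinearMap.congr_fun (Wire41.ShaMap.locH2_eq_res₂ S M q) z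

/-- `coind V 𝔽_p` is an `S`-representation for an `S`-level `V` -/
lemma isSRep_coind {V : Subgroup GQ} (hV : V ∈ (globalLevels S).levels) :
    IsSRep p S (coind (k := ZMod p) V (ZMod p)) := by
  haveI := (globalLevels S).normal V hV
  exact ⟨V, hV, fun s hs => LinearMap.ext fun f => coind_ρ_of_mem hs f⟩

/-- **The per-level plug of `HBase48` from the literal plugs (P5), (P6), (P7')** (level forms of
(P5), (P6); literal form of (P7')) and local duality. -/
theorem levelPlug_of_literal (hp2 : p ≠ 2) (hpS : pPrime p ∈ S) (hμ : MuTrivialised p S)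
    (inv : InvFamily p S) (hloc : LocDual26.Wire.LocalDual inv)
    (hP5 : Profin15.Plug.LocalDimL p S) (hP6 : Profin15.Plug.GlobalCokerDimL p S)
    (hP7 : HilbertCount p S)
    {Λ : (globalLevels S).H2 (Y hμ) →ₗ[ZMod p] ZMod p}
    (hΛ : Dualizing59.IsTrace (hr S) hμ inv Λ)
    {V : Subgroup GQ} (hV : V ∈ (globalLevels S).levels) (hVμ : ∀ s ∈ V, (mu p).ρ s = 1) :
    HBase48.LevelPlug (globalLevels S) Λ (qY (r := rq S) hμ) V := by
  haveI : Nonempty ↥S := ⟨⟨pPrime p, hpS⟩⟩
  haveI := (globalLevels S).normal V hV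
  haveI := (globalLevels S).finiteIndex V hV
  haveI : Finite (GQ ⧸ V) := Subgroup.finite_quotient_of_finiteIndex
  let e := permEqIso p V
  obtain ⟨hfinG, hcok⟩ := hP6 V hV hVμ
  obtain ⟨hfinSha, hcnt⟩ := hP7 V hV hVμ
  have hfinL := fun q : ↥S => (hP5 q V hV hVμ).1
  -- the local `H²`'s of `perm` and `coind` correspond
  have hloceq : ∀ q : ↥S,
      finrank (ZMod p) ((Uq S q).H2 (Rep.res (rq S q) (perm p V))) =
        finrank (ZMod p) ((Uq S q).H2 (Rep.res (rq S q) (coind (k := ZMod p) V (ZMod p)))) :=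
    fun q => ((e.res (rq S q)).H2equiv (Uq S q)).finrank_eq
  refine levelPlug_of_counts (hr S) hμ inv hΛ hV (mu_fixed_of_ρ_eq_one p hVμ) (1 : mu p)
    (mu_one_bijective p) ?_ ?_ ?_ ?_ ?_
  · exact Module.Finite.equiv (e.H2equiv (globalLevels S))
  · intro q
    haveI := hfinL q
    exact Module.Finite.equiv ((e.res (rq S q)).H2equiv (Uq S q))
  · intro q
    exact hloc q (coind (k := ZMod p) V (ZMod p)) (isSRep_coind hV)
  · rw [← e.finrank_range_locAll₂ (hr S), locAll₂_eq_locTotal]
    refine le_trans (le_of_eq ?_) hcok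
    exact Finset.sum_congr rfl fun q _ => (hloceq q).symm
  · rw [← (e.Sha2equiv (hr S)).finrank_eq, ← (e.Sha1equiv (hr S)).finrank_eq,
      ← (sha₂EquivSha2 S hp2 (perm p V)).finrank_eq, (sha₁EquivSha1 S hp2 (perm p V)).finrank_eq]
    exact hcnt

/-- **THE GLOBAL BASE CASE OF ROUTE W59 FROM THE LITERAL PLUGS.** -/
theorem globalBaseStatement : LocDual26.Wire.GlobalBaseStatement := by
  intro p _ hp2 S hpS hPlugs inv _ _ hloc Λ hΛ
  obtain ⟨-, -, -, hP5, hP6, hP7L⟩ := (Profin15.Plug.plugsCount_iff p S).1 hPlugs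
  have hP7 : HilbertCount p S := hPlugs.2.2.2.2.2
  have hμ : MuTrivialised p S := Wire41.SRep.exists_level_fixing_mu hpS
  have hΛ' : Dualizing59.IsTrace (hr S) hμ inv Λ := (R3Wire52b.isTrace_iff hμ inv Λ).1 hΛ
  refine HBase48.hbase_of_plugs (globalLevels S) Λ (qY (r := rq S) hμ) (cokerProj_surjective _)
    JObj_isSmooth (fun V => ∀ s ∈ V, (mu p).ρ s = 1) ?_ ?_
  · intro U hU
    obtain ⟨U₀, hU₀, hfix⟩ := hμ
    obtain ⟨W, hW, hWle⟩ := (globalLevels S).directed U hU U₀ hU₀
    exact ⟨W, hW, hWle.trans inf_le_left,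
      mu_ρ_eq_one_of_fixed p fun s hs m => hfix s ((hWle.trans inf_le_right) hs) m⟩
  · intro V hV hVμ
    exact levelPlug_of_literal hp2 hpS hμ inv hloc hP5 hP6 hP7 hΛ' hV hVμ

end instance_

/-! ### Consequences: the formal top layer is PROVED on route W59 -/

section top

open Fermat.Agent.Lib.FrobeniusExists (Qb GQ)

/-- **`Contract34.TopStatementCount` (the formal top layer, count form) is a theorem**:
literal plugs (P1), (P2), (P3P4), (P5), (P6), (P7') ⇒ the dimension statement. -/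
theorem topStatementCount : Contract34.TopStatementCount :=
  LocDual26.Wire.topStatementCount_of_globalBase globalBaseStatement

/-- the spine statement from the literal arithmetic statement alone -/
theorem dimStatement_of_arithCount (hArith : Contract34.ArithStatementCount) :
    Spine15.DimStatement :=
  LocDual26.Wire.dimStatement_of_globalBase globalBaseStatement hArith

/-- **The frozen S55 statement from the literal arithmetic statement `ArithStatementCount`
alone** (all formal layers discharged). -/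
theorem s55_of_arithCount (hArith : Contract34.ArithStatementCount)
    {p : ℕ} [Fact p.Prime] (hp2 : p ≠ 2) (S : Finset Nat.Primes) (hpS : pPrime p ∈ S)
    (M : Rep (ZMod p) (AlgebraicClosure ℚ ≃ₐ[ℚ] AlgebraicClosure ℚ))
    [FiniteDimensional (ZMod p) M]
    (hsm : ∀ m : M, ∃ F : IntermediateField ℚ (AlgebraicClosure ℚ), FiniteDimensional ℚ F ∧
      ∀ s ∈ F.fixingSubgroup, M.ρ s m = m)
    (hMur : ∀ q : Nat.Primes, q ∉ S → ∀ A : ValuationSubring (AlgebraicClosure ℚ),
      A.LiesOverPrime (q : ℕ) → ∀ g ∈ A.inertiaSubgroupIn ℚ, M.ρ g = 1) :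
    ∃ B : sha₁ S (M.dualTwist (cycloChar p)) →ₗ[ZMod p] sha₂ S M →ₗ[ZMod p] ZMod p,
      (∀ y, (∀ x, B y x = 0) → y = 0) ∧ (∀ x, (∀ y, B y x = 0) → x = 0) :=
  Spine15.s55_of_dimStatement (dimStatement_of_arithCount hArith) hp2 S hpS M hsm hMur

end top

end Fermat.Agent.S55.Dualizing11
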