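/-
S55 / 44-DUALIZING, second seat (helper11): finiteness of `H²(M)` (hence of `Sha²(M)`) from
right exactness and finiteness of `H²(k^(G/V))` for a cofinal family of levels `V`.
-/
import Fermat.Agent.S55.Dualizing59.Loc

set_option autoImplicit false
set_option linter.unusedSectionVars false
set_option linter.style.haveILetI false

universe u

open CategoryTheory groupCohomology

namespace Fermat.Agent.S55.Dualizing11

open Fermat.Agent.S55.Profin15 Fermat.Agent.S55.Dualizing59

variable {k : Type u} [Field k] {G : Type u} [Group G] {𝒰 : LevelStr G}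

/-- `H²(W^(G/V))` is finite-dimensional if `H²(k^(G/V))` is and `W` is finite-dimensional. -/
theorem finite_H2_coind {V : Subgroup G} (W : Type u) [AddCommGroup W] [Module k W]
    [Module.Finite k W] (hV : Module.Finite k (𝒰.H2 (coind (k := k) V k))) :
    Module.Finite k (𝒰.H2 (coind (k := k) V W)) := by
  classical
  let b := Module.finBasis k W
  let inc : ∀ i : Fin (Module.finrank k W), eqHom (coind (k := k) V k) (coind (k := k) V W) :=
    fun i => coindMap (V := V) (LinearMap.toSpanSingleton k W (b i))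
  let prj : ∀ i : Fin (Module.finrank k W), eqHom (coind (k := k) V W) (coind (k := k) V k) :=
    fun i => coindMap (V := V) (b.coord i)
  have hid : ∑ i, eqComp (inc i) (prj i) = eqId (coind (k := k) V W) := by
    apply Subtype.ext
    apply LinearMap.ext
    intro F
    rw [Submodule.coe_sum, LinearMap.sum_apply]
    exact sum_compLeft_basis W b F
  have hH : ∑ i, H2m 𝒰 (inc i) ∘ₗ H2m 𝒰 (prj i) = LinearMap.id := by
    rw [← H2m_id, ← hid, ← H2mL_apply, map_sum]
    refine Finset.sum_congr rfl fun i _ => ?_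
    rw [H2mL_apply, H2m_comp]
  let Φ : 𝒰.H2 (coind (k := k) V W) →ₗ[k]
      (Fin (Module.finrank k W) → 𝒰.H2 (coind (k := k) V k)) :=
    LinearMap.pi fun i => H2m 𝒰 (prj i)
  have hΦ : Function.Injective Φ := by
    rw [injective_iff_map_eq_zero]
    intro x hx
    have hx' : ∀ i, H2m 𝒰 (prj i) x = 0 := fun i => congrFun hx i
    have h1 := LinearMap.congr_fun hH x
    simp only [LinearMap.sum_apply, LinearMap.comp_apply, LinearMap.id_apply] at h1
    rw [← h1]
    exact Finset.sum_eq_zero fun i _ => by rw [hx' i, map_zero]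
  haveI := hV
  exact Module.Finite.of_injective Φ hΦ

/-- **Finiteness of `H²(M)`** for smooth finite-dimensional `M`, from right exactness and
finiteness of `H²` of the permutation modules for a cofinal family of levels. -/
theorem finite_H2_of_rightExactH2 (hRS : RightExactH2 k 𝒰)
    (hfin : ∀ U ∈ 𝒰.levels, ∃ V ∈ 𝒰.levels, V ≤ U ∧
      Module.Finite k (𝒰.H2 (coind (k := k) V k)))
    (M : Rep.{u} k G) [Module.Finite k M] (hM : 𝒰.IsSmooth M) : Module.Finite k (𝒰.H2 M) := by
  obtain ⟨U, hU, htriv⟩ := exists_level_trivial M hM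
  obtain ⟨V, hV, hVU, hgood⟩ := hfin U hU
  haveI := 𝒰.finiteIndex V hV
  haveI : Finite (G ⧸ V) := Subgroup.finite_quotient_of_finiteIndex
  letI := Fintype.ofFinite (G ⧸ V)
  have htriv' : ∀ s ∈ V, ∀ n : M, M.ρ s n = n := fun s hs n => htriv s (hVU hs) n
  have hPsm : 𝒰.IsSmooth (coind (k := k) V M) := coind_isSmooth 𝒰 hV
  have hsurj := hRS _ _ inferInstance inferInstance hPsm hM _ (cover_surjective htriv')
  haveI := finite_H2_coind (𝒰 := 𝒰) (V := V) M hgood
  exact Module.Finite.of_surjective _ hsurj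

/-- finiteness of `Sha²(M)` -/
theorem finite_Sha2_of_rightExactH2 {ι : Type} {Gv : ι → Type u} [∀ v, Group (Gv v)]
    {r : ∀ v, Gv v →* G} {𝒰v : ∀ v, LevelStr (Gv v)} (hr : ∀ v, IsCont (𝒰v v) 𝒰 (r v))
    (hRS : RightExactH2 k 𝒰)
    (hfin : ∀ U ∈ 𝒰.levels, ∃ V ∈ 𝒰.levels, V ≤ U ∧
      Module.Finite k (𝒰.H2 (coind (k := k) V k)))
    (M : Rep.{u} k G) [Module.Finite k M] (hM : 𝒰.IsSmooth M) :
    Module.Finite k ↥(Sha2 hr M) := by
  haveI := finite_H2_of_rightExactH2 hRS hfin M hM
  infer_instance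

end Fermat.Agent.S55.Dualizing11
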