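/-
S55 / 44-DUALIZING, second seat (helper11): smooth induction.

For a group `G` with a level structure `𝒰`, a finite family of "local" groups `r v : Gv v →* G`
and a smooth `G`-module `μ`:

* `J 𝒰 r μ = ∏_v Ind_v μ` : families of level-constant functions `F v : G → μ` with
  `F v (x * r v d) = (r v d)⁻¹ • F v x`, `G` acting by left translation `(g • F) v x = F v (g⁻¹ x)`;
* `diag : μ → J`, `a ↦ (x ↦ x⁻¹ • a)`; `Y = J / diag μ`; `toY : J → Y`;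
* `ev v : J → μ`, `F ↦ F v 1` (equivariant along `r v`);
* Frobenius reciprocity `frob : (∏_v Hom_{Gv v}(M, μ)) ≃ Hom_G(M, J)` for smooth `M`.
-/
import Fermat.Agent.S55.Dualizing59.Main
import Fermat.Agent.S55.Profin15.Exact

set_option autoImplicit false
set_option linter.style.haveILetI false

universe u

open CategoryTheory groupCohomology

namespace Fermat.Agent.S55.Dualizing11.IndSpare

open Fermat.Agent.S55.Profin15 Fermat.Agent.S55.Dualizing59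

variable {k : Type u} [Field k] {G : Type u} [Group G] (𝒰 : LevelStr G)
variable {ι : Type u} {Gv : ι → Type u} [∀ v, Group (Gv v)] (r : ∀ v, Gv v →* G)
variable (μ : Rep.{u} k G)

/-- The carrier of `J = ∏_v Ind_v μ`. -/
def Jsub : Submodule k (ι → G → μ) where
  carrier := {F | ∀ v, 𝒰.IsConst₁ (F v) ∧
    ∀ (x : G) (d : Gv v), F v (x * r v d) = μ.ρ (r v d)⁻¹ (F v x)}
  add_mem' := by
    intro F F' hF hF' v
    refine ⟨(hF v).1.add (hF' v).1, fun x d => ?_⟩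
    simp only [Pi.add_apply, (hF v).2 x d, (hF' v).2 x d, map_add]
  zero_mem' := by
    intro v
    refine ⟨LevelStr.isConst₁_const (0 : μ), fun x d => ?_⟩
    simp
  smul_mem' := by
    intro c F hF v
    refine ⟨(hF v).1.comp (c • ·), fun x d => ?_⟩
    simp only [Pi.smul_apply, (hF v).2 x d, map_smul]

lemma mem_Jsub_iff (F : ι → G → μ) : F ∈ Jsub 𝒰 r μ ↔ ∀ v, 𝒰.IsConst₁ (F v) ∧
    ∀ (x : G) (d : Gv v), F v (x * r v d) = μ.ρ (r v d)⁻¹ (F v x) := Iff.rfl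

/-- left translation on families of functions -/
def translate (g : G) : (ι → G → μ) →ₗ[k] (ι → G → μ) where
  toFun F := fun v x => F v (g⁻¹ * x)
  map_add' _ _ := rfl
  map_smul' _ _ := rfl

lemma translate_mem (g : G) {F : ι → G → μ} (hF : F ∈ Jsub 𝒰 r μ) :
    translate (ι := ι) μ g F ∈ Jsub 𝒰 r μ := by
  intro v
  obtain ⟨⟨U, hU, hc⟩, he⟩ := hF v
  refine ⟨⟨U, hU, fun x s hs => ?_⟩, fun x d => ?_⟩
  · show F v (g⁻¹ * (x * s)) = F v (g⁻¹ * x)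
    rw [← mul_assoc]
    exact hc _ _ hs
  · show F v (g⁻¹ * (x * r v d)) = μ.ρ (r v d)⁻¹ (F v (g⁻¹ * x))
    rw [← mul_assoc]
    exact he _ _

/-- the representation of `G` on `J` -/
def Jrep : Representation k G (Jsub 𝒰 r μ) where
  toFun g := (translate (ι := ι) μ g).restrict fun _ hF => translate_mem 𝒰 r μ g hF
  map_one' := by
    ext F v x
    show F.1 v (1⁻¹ * x) = F.1 v x
    rw [inv_one, one_mul]
  map_mul' g h := by
    ext F v x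
    show F.1 v ((g * h)⁻¹ * x) = F.1 v (h⁻¹ * (g⁻¹ * x))
    rw [mul_inv_rev, mul_assoc]

/-- `J = ∏_v Ind_v μ` as a representation of `G`. -/
def J : Rep k G := Rep.of (Jrep 𝒰 r μ)

variable {𝒰 r μ}

/-- the underlying family of functions of an element of `J` -/
def J.fn (F : J 𝒰 r μ) : ι → G → μ := (F : Jsub 𝒰 r μ).1

lemma J.fn_mem (F : J 𝒰 r μ) : J.fn F ∈ Jsub 𝒰 r μ := (F : Jsub 𝒰 r μ).2

lemma J.ext {F F' : J 𝒰 r μ} (h : ∀ v x, J.fn F v x = J.fn F' v x) : F = F' := by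
  apply Subtype.ext
  funext v x
  exact h v x

@[simp] lemma J.fn_ρ (g : G) (F : J 𝒰 r μ) (v : ι) (x : G) :
    J.fn ((J 𝒰 r μ).ρ g F) v x = J.fn F v (g⁻¹ * x) := rfl

@[simp] lemma J.fn_add (F F' : J 𝒰 r μ) (v : ι) (x : G) :
    J.fn (F + F') v x = J.fn F v x + J.fn F' v x := rfl

@[simp] lemma J.fn_smul (c : k) (F : J 𝒰 r μ) (v : ι) (x : G) :
    J.fn (c • F) v x = c • J.fn F v x := rfl

@[simp] lemma J.fn_zero (v : ι) (x : G) : J.fn (0 : J 𝒰 r μ) v x = 0 := rfl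

lemma J.fn_mul_r (F : J 𝒰 r μ) (v : ι) (x : G) (d : Gv v) :
    J.fn F v (x * r v d) = μ.ρ (r v d)⁻¹ (J.fn F v x) := ((J.fn_mem F) v).2 x d

lemma J.isConst₁ (F : J 𝒰 r μ) (v : ι) : 𝒰.IsConst₁ (J.fn F v) := ((J.fn_mem F) v).1

/-- constructor -/
def J.mk (F : ι → G → μ) (hF : F ∈ Jsub 𝒰 r μ) : J 𝒰 r μ := (⟨F, hF⟩ : Jsub 𝒰 r μ)

@[simp] lemma J.fn_mk (F : ι → G → μ) (hF : F ∈ Jsub 𝒰 r μ) : J.fn (J.mk F hF) = F := rfl

/-! ### Smoothness of `J` -/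

/-- finitely many levels have a common lower bound -/
lemma exists_level_le_of_finite [Finite ι] (U : ι → Subgroup G) (hU : ∀ v, U v ∈ 𝒰.levels) :
    ∃ W ∈ 𝒰.levels, ∀ v, W ≤ U v := by
  have key : ∀ s : Set (Subgroup G), s.Finite → (∀ V ∈ s, V ∈ 𝒰.levels) →
      ∃ W ∈ 𝒰.levels, ∀ V ∈ s, W ≤ V := by
    intro s hs
    induction s, hs using Set.Finite.induction_on with
    | empty =>
      intro _
      obtain ⟨W, hW⟩ := 𝒰.nonempty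
      exact ⟨W, hW, fun V hV => (Set.notMem_empty V hV).elim⟩
    | insert _ _ ih =>
      rename_i a s _ _
      intro h
      obtain ⟨W, hW, hle⟩ := ih fun V hV => h V (Set.mem_insert_of_mem _ hV)
      obtain ⟨W', hW', hle'⟩ := 𝒰.directed W hW a (h a (Set.mem_insert _ _))
      refine ⟨W', hW', fun V hV => ?_⟩
      rcases Set.mem_insert_iff.1 hV with rfl | hV
      · exact hle'.trans inf_le_right
      · exact (hle'.trans inf_le_left).trans (hle V hV)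
  obtain ⟨W, hW, h⟩ := key (Set.range U) (Set.finite_range U) (by rintro _ ⟨v, rfl⟩; exact hU v)
  exact ⟨W, hW, fun v => h _ ⟨v, rfl⟩⟩

variable (𝒰 r μ) in
/-- `J` is smooth (finite index set). -/
lemma J_isSmooth [Finite ι] : 𝒰.IsSmooth (J 𝒰 r μ) := by
  intro F
  choose U hU hc using fun v => J.isConst₁ F v
  obtain ⟨W, hW, hle⟩ := exists_level_le_of_finite U hU
  haveI := 𝒰.normal W hW
  refine ⟨W, hW, fun s hs => J.ext fun v x => ?_⟩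
  rw [J.fn_ρ]
  have h1 : s⁻¹ * x = x * (x⁻¹ * s⁻¹ * x) := by group
  rw [h1]
  exact hc v x _ (hle v (Subgroup.Normal.conj_mem' ‹_› s⁻¹ (W.inv_mem hs) x))

/-! ### The diagonal `μ → J` and the quotient `Y` -/

lemma diagFn_mem (hμ : 𝒰.IsSmooth μ) (a : μ) :
    (fun (_ : ι) (x : G) => μ.ρ x⁻¹ a) ∈ Jsub 𝒰 r μ := by
  intro v
  obtain ⟨U, hU, hfix⟩ := hμ a
  haveI := 𝒰.normal U hU
  refine ⟨⟨U, hU, fun x s hs => ?_⟩, fun x d => ?_⟩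
  · show μ.ρ (x * s)⁻¹ a = μ.ρ x⁻¹ a
    have h1 : (x * s)⁻¹ = x⁻¹ * (x * s⁻¹ * x⁻¹) := by group
    rw [h1, map_mul, Module.End.mul_apply,
      hfix _ (Subgroup.Normal.conj_mem ‹_› s⁻¹ (U.inv_mem hs) x)]
  · show μ.ρ (x * r v d)⁻¹ a = μ.ρ (r v d)⁻¹ (μ.ρ x⁻¹ a)
    rw [mul_inv_rev, map_mul, Module.End.mul_apply]

variable (𝒰 r) in
/-- the diagonal embedding `a ↦ (x ↦ x⁻¹ • a)` -/
def diagLin (hμ : 𝒰.IsSmooth μ) : μ →ₗ[k] J 𝒰 r μ where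
  toFun a := J.mk _ (diagFn_mem hμ a)
  map_add' a b := J.ext fun v x => by
    show μ.ρ x⁻¹ (a + b) = μ.ρ x⁻¹ a + μ.ρ x⁻¹ b
    rw [map_add]
  map_smul' c a := J.ext fun v x => by
    show μ.ρ x⁻¹ (c • a) = c • μ.ρ x⁻¹ a
    rw [map_smul]

@[simp] lemma fn_diagLin (hμ : 𝒰.IsSmooth μ) (a : μ) (v : ι) (x : G) :
    J.fn (diagLin 𝒰 r hμ a) v x = μ.ρ x⁻¹ a := rfl

lemma diagLin_mem_eqHom (hμ : 𝒰.IsSmooth μ) : diagLin 𝒰 r hμ ∈ eqHom μ (J 𝒰 r μ) := by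
  intro g a
  refine J.ext fun v x => ?_
  show μ.ρ x⁻¹ (μ.ρ g a) = μ.ρ (g⁻¹ * x)⁻¹ a
  rw [mul_inv_rev, inv_inv, map_mul, Module.End.mul_apply]

variable (𝒰 r) in
/-- the diagonal as an equivariant map -/
def diag (hμ : 𝒰.IsSmooth μ) : eqHom μ (J 𝒰 r μ) := ⟨diagLin 𝒰 r hμ, diagLin_mem_eqHom hμ⟩

lemma diag_injective [Nonempty ι] (hμ : 𝒰.IsSmooth μ) : Function.Injective (diag 𝒰 r hμ).1 := by
  intro a b hab
  obtain ⟨v⟩ := ‹Nonempty ι›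
  have h := congrArg (fun F => J.fn F v 1) hab
  have h1 : ∀ c : μ, J.fn ((diag 𝒰 r hμ).1 c) v 1 = c := fun c => by
    show μ.ρ (1 : G)⁻¹ c = c
    simp
  simpa only [h1] using h

lemma range_diag_le_comap (hμ : 𝒰.IsSmooth μ) (g : G) :
    LinearMap.range (diag 𝒰 r hμ).1 ≤ (LinearMap.range (diag 𝒰 r hμ).1).comap ((J 𝒰 r μ).ρ g) := by
  rintro _ ⟨a, rfl⟩
  exact ⟨μ.ρ g a, (diag 𝒰 r hμ).2 g a⟩

variable (𝒰 r) in
/-- `Y = J / diag μ` -/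
def Y (hμ : 𝒰.IsSmooth μ) : Rep k G :=
  Rep.of ((J 𝒰 r μ).ρ.quotient (LinearMap.range (diag 𝒰 r hμ).1) (range_diag_le_comap hμ))

variable (𝒰 r) in
/-- the projection `J → Y` -/
def toY (hμ : 𝒰.IsSmooth μ) : eqHom (J 𝒰 r μ) (Y 𝒰 r hμ) :=
  ⟨(LinearMap.range (diag 𝒰 r hμ).1).mkQ, fun _ _ => rfl⟩

lemma toY_surjective (hμ : 𝒰.IsSmooth μ) : Function.Surjective (toY 𝒰 r hμ).1 :=
  Submodule.mkQ_surjective _

lemma toY_eq_zero_iff (hμ : 𝒰.IsSmooth μ) (F : J 𝒰 r μ) :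
    (toY 𝒰 r hμ).1 F = 0 ↔ ∃ a, (diag 𝒰 r hμ).1 a = F := by
  show (LinearMap.range (diag 𝒰 r hμ).1).mkQ F = 0 ↔ _
  rw [Submodule.mkQ_apply, Submodule.Quotient.mk_eq_zero]
  rfl

/-- `0 → μ → J → Y → 0` is short exact (in the `Profin15` sense). -/
theorem shortExact_diag_toY [Nonempty ι] (hμ : 𝒰.IsSmooth μ) :
    LevelStr.ShortExact (A := μ) (B := J 𝒰 r μ) (C := Y 𝒰 r hμ)
      (diag 𝒰 r hμ).1 (toY 𝒰 r hμ).1 where
  equivariant_left := fun g a => (diag 𝒰 r hμ).2 g a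
  equivariant_right := fun g a => (toY 𝒰 r hμ).2 g a
  injective := diag_injective hμ
  surjective := toY_surjective hμ
  exact := fun F => by
    rw [toY_eq_zero_iff]
    rfl

lemma Y_isSmooth [Finite ι] (hμ : 𝒰.IsSmooth μ) : 𝒰.IsSmooth (Y 𝒰 r hμ) := by
  intro y
  obtain ⟨F, rfl⟩ := toY_surjective hμ y
  obtain ⟨U, hU, hfix⟩ := J_isSmooth 𝒰 r μ F
  refine ⟨U, hU, fun s hs => ?_⟩
  have := (toY 𝒰 r hμ).2 s F
  simp only [MonoidHom.id_apply] at this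
  rw [← this, hfix s hs]

/-! ### Evaluation at `1` -/

variable (𝒰 r μ) in
/-- `ev v : J → μ`, `F ↦ F v 1` -/
def ev (v : ι) : J 𝒰 r μ →ₗ[k] μ where
  toFun F := J.fn F v 1
  map_add' _ _ := rfl
  map_smul' _ _ := rfl

@[simp] lemma ev_apply (v : ι) (F : J 𝒰 r μ) : ev 𝒰 r μ v F = J.fn F v 1 := rfl

/-- `ev v` is equivariant along `r v`. -/
lemma ev_isEquivariant (v : ι) :
    IsEquivariant (r v) (J 𝒰 r μ) (Rep.res (r v) μ) (ev 𝒰 r μ v) := by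
  intro d F
  show J.fn ((J 𝒰 r μ).ρ (r v d) F) v 1 = μ.ρ (r v d) (J.fn F v 1)
  rw [J.fn_ρ, mul_one]
  have h := J.fn_mul_r F v 1 d⁻¹
  rw [one_mul, map_inv, inv_inv] at h
  exact h

lemma ev_diag (hμ : 𝒰.IsSmooth μ) (v : ι) (a : μ) : ev 𝒰 r μ v ((diag 𝒰 r hμ).1 a) = a := by
  show μ.ρ (1 : G)⁻¹ a = a
  simp

/-- an element of `J` is determined by the values `x ↦ ev v (x⁻¹ • F)` -/
lemma J.fn_eq_ev (F : J 𝒰 r μ) (v : ι) (x : G) :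
    J.fn F v x = ev 𝒰 r μ v ((J 𝒰 r μ).ρ x⁻¹ F) := by
  rw [ev_apply, J.fn_ρ, inv_inv, mul_one]

/-! ### Frobenius reciprocity -/

variable (r μ) in
/-- `Hom_{Gv v}(M, μ)`: linear maps equivariant for the action of `Gv v` through `r v`. -/
abbrev locHom (v : ι) (M : Rep.{u} k G) : Submodule k (Rep.res (r v) M →ₗ[k] Rep.res (r v) μ) :=
  eqHom (Rep.res (r v) M) (Rep.res (r v) μ)

lemma locHom_apply_ρ {v : ι} {M : Rep.{u} k G} (ψ : locHom r μ v M) (d : Gv v) (m : M) :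
    ψ.1 (M.ρ (r v d) m) = μ.ρ (r v d) (ψ.1 m) := ψ.2 d m

section frob

variable {M : Rep.{u} k G}

lemma frobFn_mem (hM : 𝒰.IsSmooth M) (ψ : ∀ v, locHom r μ v M) (m : M) :
    (fun (v : ι) (x : G) => ((ψ v).1 (M.ρ x⁻¹ m) : μ)) ∈ Jsub 𝒰 r μ := by
  intro v
  obtain ⟨U, hU, hfix⟩ := hM m
  haveI := 𝒰.normal U hU
  refine ⟨⟨U, hU, fun x s hs => ?_⟩, fun x d => ?_⟩
  · show (ψ v).1 (M.ρ (x * s)⁻¹ m) = (ψ v).1 (M.ρ x⁻¹ m)
    have h1 : (x * s)⁻¹ = x⁻¹ * (x * s⁻¹ * x⁻¹) := by group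
    rw [h1, map_mul, Module.End.mul_apply,
      hfix _ (Subgroup.Normal.conj_mem ‹_› s⁻¹ (U.inv_mem hs) x)]
  · show (ψ v).1 (M.ρ (x * r v d)⁻¹ m) = μ.ρ (r v d)⁻¹ ((ψ v).1 (M.ρ x⁻¹ m))
    rw [mul_inv_rev, map_mul, Module.End.mul_apply, ← map_inv]
    exact locHom_apply_ρ (ψ v) d⁻¹ _

variable (𝒰) in
/-- Frobenius reciprocity, the linear map `M → J` attached to a family of local maps. -/
def frobLin (hM : 𝒰.IsSmooth M) (ψ : ∀ v, locHom r μ v M) : M →ₗ[k] J 𝒰 r μ where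
  toFun m := J.mk _ (frobFn_mem hM ψ m)
  map_add' a b := J.ext fun v x => by
    show (ψ v).1 (M.ρ x⁻¹ (a + b)) = (ψ v).1 (M.ρ x⁻¹ a) + (ψ v).1 (M.ρ x⁻¹ b)
    rw [map_add, map_add]
  map_smul' c a := J.ext fun v x => by
    show (ψ v).1 (M.ρ x⁻¹ (c • a)) = c • (ψ v).1 (M.ρ x⁻¹ a)
    rw [map_smul, map_smul]

@[simp] lemma fn_frobLin (hM : 𝒰.IsSmooth M) (ψ : ∀ v, locHom r μ v M) (m : M) (v : ι) (x : G) :
    J.fn (frobLin 𝒰 hM ψ m) v x = (ψ v).1 (M.ρ x⁻¹ m) := rfl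

lemma frobLin_mem_eqHom (hM : 𝒰.IsSmooth M) (ψ : ∀ v, locHom r μ v M) :
    frobLin 𝒰 hM ψ ∈ eqHom M (J 𝒰 r μ) := by
  intro g m
  refine J.ext fun v x => ?_
  show (ψ v).1 (M.ρ x⁻¹ (M.ρ g m)) = (ψ v).1 (M.ρ (g⁻¹ * x)⁻¹ m)
  rw [mul_inv_rev, inv_inv, map_mul, Module.End.mul_apply]

variable (𝒰) in
/-- **Frobenius reciprocity** `∏_v Hom_{Gv v}(M, μ) → Hom_G(M, J)`. -/
def frob (hM : 𝒰.IsSmooth M) : (∀ v, locHom r μ v M) →ₗ[k] eqHom M (J 𝒰 r μ) where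
  toFun ψ := ⟨frobLin 𝒰 hM ψ, frobLin_mem_eqHom hM ψ⟩
  map_add' ψ ψ' := by
    apply Subtype.ext
    apply LinearMap.ext
    intro m
    exact J.ext fun v x => rfl
  map_smul' c ψ := by
    apply Subtype.ext
    apply LinearMap.ext
    intro m
    exact J.ext fun v x => rfl

@[simp] lemma ev_frob (hM : 𝒰.IsSmooth M) (ψ : ∀ v, locHom r μ v M) (v : ι) (m : M) :
    ev 𝒰 r μ v ((frob 𝒰 hM ψ).1 m) = (ψ v).1 m := by
  show (ψ v).1 (M.ρ (1 : G)⁻¹ m) = (ψ v).1 m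
  simp

variable (𝒰 r μ) in
/-- the inverse of Frobenius reciprocity: `φ ↦ (ev v ∘ φ)_v` -/
def frobInv (M : Rep.{u} k G) : eqHom M (J 𝒰 r μ) →ₗ[k] (∀ v, locHom r μ v M) where
  toFun φ := fun v => ⟨ev 𝒰 r μ v ∘ₗ φ.1, fun d m => by
    have h1 := φ.2 (r v d) m
    have h2 := ev_isEquivariant (𝒰 := 𝒰) (r := r) (μ := μ) v d (φ.1 m)
    simp only [MonoidHom.id_apply] at h1 ⊢
    show ev 𝒰 r μ v (φ.1 (M.ρ (r v d) m)) = μ.ρ (r v d) (ev 𝒰 r μ v (φ.1 m))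
    rw [h1]
    exact h2⟩
  map_add' _ _ := rfl
  map_smul' _ _ := rfl

@[simp] lemma frobInv_apply (φ : eqHom M (J 𝒰 r μ)) (v : ι) (m : M) :
    (frobInv 𝒰 r μ M φ v).1 m = ev 𝒰 r μ v (φ.1 m) := rfl

lemma frobInv_frob (hM : 𝒰.IsSmooth M) (ψ : ∀ v, locHom r μ v M) :
    frobInv 𝒰 r μ M (frob 𝒰 hM ψ) = ψ := by
  funext v
  apply Subtype.ext
  apply LinearMap.ext
  intro m
  exact ev_frob hM ψ v m

lemma frob_frobInv (hM : 𝒰.IsSmooth M) (φ : eqHom M (J 𝒰 r μ)) :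
    frob 𝒰 hM (frobInv 𝒰 r μ M φ) = φ := by
  apply Subtype.ext
  apply LinearMap.ext
  intro m
  refine J.ext fun v x => ?_
  rw [J.fn_eq_ev (φ.1 m)]
  have h1 := φ.2 x⁻¹ m
  simp only [MonoidHom.id_apply] at h1
  rw [← h1]
  rfl

variable (𝒰) in
/-- **Frobenius reciprocity** as a linear equivalence. -/
def frobEquiv (hM : 𝒰.IsSmooth M) : (∀ v, locHom r μ v M) ≃ₗ[k] eqHom M (J 𝒰 r μ) :=
  { frob 𝒰 hM with
    invFun := frobInv 𝒰 r μ M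
    left_inv := frobInv_frob hM
    right_inv := frob_frobInv hM }

end frob

end Fermat.Agent.S55.Dualizing11.IndSpare
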